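import Fermat.Agent.DeligneSerre.ImageModRep
import Fermat.Prelude.Def_Deformations_MatrixRepresentation

/-!
# Irreducibility from the mean square of the coefficients

A reducible representation of a finite group has `|χ₁ + χ₂|²` of mean at least `2`, while the
primes give the mean at most `1`.
-/

set_option autoImplicit false
set_option maxHeartbeats 800000

noncomputable section

namespace FermatAgent.DeligneSerre

open Matrix

local notation "Qb" => AlgebraicClosure ℚ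
local notation "GQ" => AlgebraicClosure ℚ ≃ₐ[ℚ] AlgebraicClosure ℚ
local notation "Mat" => Matrix (Fin 2) (Fin 2)

/-- The mean of the squared absolute value of the trace of a reducible representation. -/
theorem two_le_mean {G : Type*} [Group G] [Fintype G] (r : G →* Mat ℂ) {W : Submodule ℂ (Fin 2 → ℂ)}
    (hW : ∀ g, ∀ x ∈ W, r g *ᵥ x ∈ W) (hW0 : W ≠ ⊥) (hW1 : W ≠ ⊤) :
    2 * (Fintype.card G : ℝ) ≤ ∑ g, ‖(r g).trace‖ ^ 2 ∧
      ∀ g, ‖(r g⁻¹).trace‖ = ‖(r g).trace‖ := by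
  classical
  have hdim : Module.finrank ℂ W = 1 := by
    have h1 := Submodule.finrank_lt hW1
    have h2 : Module.finrank ℂ W ≠ 0 := fun h => hW0 (Submodule.finrank_eq_zero.mp h)
    rw [Module.finrank_fin_fun] at h1
    omega
  obtain ⟨⟨v, hv⟩, hv0, hspan⟩ := finrank_eq_one_iff'.mp hdim
  have hv0' : v ≠ 0 := fun h => hv0 (Subtype.ext h)
  have hex : ∀ g, ∃ c : ℂ, r g *ᵥ v = c • v := fun g => by
    obtain ⟨c, hc⟩ := hspan ⟨r g *ᵥ v, hW g v hv⟩
    exact ⟨c, (congrArg Subtype.val hc).symm⟩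
  choose c hc using hex
  have huniq : ∀ {g d}, r g *ᵥ v = d • v → c g = d := fun h =>
    smul_left_injective ℂ hv0' ((hc _).symm.trans h)
  let χ₁ : G →* ℂ :=
    { toFun := c
      map_one' := huniq (by rw [map_one, Matrix.one_mulVec, one_smul])
      map_mul' := fun g h => huniq (by
        rw [map_mul, ← Matrix.mulVec_mulVec, hc h, Matrix.mulVec_smul, hc g, smul_smul, mul_comm]) }
  let χ₂ : G →* ℂ :=
    { toFun := fun g => (r g).det * χ₁ g⁻¹
      map_one' := by simp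
      map_mul' := fun g h => by
        rw [map_mul, Matrix.det_mul, _root_.mul_inv_rev, map_mul]; ring }
  have hinv : ∀ g, χ₁ g * χ₁ g⁻¹ = 1 := fun g => by rw [← map_mul, mul_inv_cancel, map_one]
  have htr : ∀ g, (r g).trace = χ₁ g + χ₂ g := fun g => by
    have h0 : (r g - c g • (1 : Mat ℂ)) *ᵥ v = 0 := by
      rw [Matrix.sub_mulVec, Matrix.smul_mulVec, Matrix.one_mulVec, hc g, sub_self]
    have hdet := Matrix.exists_mulVec_eq_zero_iff.mp ⟨v, hv0', h0⟩
    rw [Matrix.det_fin_two] at hdet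
    simp [Matrix.sub_apply, Matrix.smul_apply] at hdet
    show _ = c g + (r g).det * χ₁ g⁻¹
    rw [Matrix.trace_fin_two, Matrix.det_fin_two]
    linear_combination -(χ₁ g⁻¹) * hdet - (r g 0 0 + r g 1 1 - c g) * hinv g
  have hnorm : ∀ (χ : G →* ℂ) (g : G), χ g⁻¹ = starRingEnd ℂ (χ g) := fun χ g => by
    have h1 : ‖χ g‖ = 1 := Complex.norm_eq_one_of_pow_eq_one
      (by rw [← map_pow, pow_orderOf_eq_one, map_one]) (orderOf_pos g).ne'
    refine (eq_inv_of_mul_eq_one_right ?_).trans (Complex.inv_eq_conj h1)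
    rw [← map_mul, mul_inv_cancel, map_one]
  refine ⟨?_, fun g => by rw [htr, htr, hnorm, hnorm, ← map_add, Complex.norm_conj]⟩
  have hsq : ∀ g, ((‖(r g).trace‖ ^ 2 : ℝ) : ℂ) = 2 + χ₁ g * χ₂ g⁻¹ + χ₂ g * χ₁ g⁻¹ := fun g => by
    rw [Complex.ofReal_pow, ← Complex.mul_conj', htr, map_add, ← hnorm, ← hnorm]
    have h2 : χ₂ g * χ₂ g⁻¹ = 1 := by rw [← map_mul, mul_inv_cancel, map_one]
    linear_combination hinv g + h2
  let ψ : G →* ℂ :=
    { toFun := fun g => χ₁ g * χ₂ g⁻¹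
      map_one' := by simp
      map_mul' := fun g h => by rw [map_mul, _root_.mul_inv_rev, map_mul]; ring }
  have hψ : (∑ g, ψ g) = if ψ = 1 then (Fintype.card G : ℂ) else 0 := by
    exact_mod_cast sum_hom_units ψ
  have h3 : ∑ g, χ₂ g * χ₁ g⁻¹ = ∑ g, ψ g := by
    rw [← Equiv.sum_comp (Equiv.inv G) (fun g => χ₂ g * χ₁ g⁻¹)]
    exact Finset.sum_congr rfl fun g _ => by
      show χ₂ g⁻¹ * χ₁ g⁻¹⁻¹ = χ₁ g * χ₂ g⁻¹
      rw [inv_inv, mul_comm]
  have hsum : ((∑ g, ‖(r g).trace‖ ^ 2 : ℝ) : ℂ) =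
      ((2 * (Fintype.card G : ℝ) + (if ψ = 1 then 2 * (Fintype.card G : ℝ) else 0) : ℝ) : ℂ) := by
    rw [Complex.ofReal_sum, Finset.sum_congr rfl fun g _ => hsq g, Finset.sum_add_distrib,
      Finset.sum_add_distrib, h3, show ∑ g, χ₁ g * χ₂ g⁻¹ = ∑ g, ψ g from rfl, hψ]
    simp only [Finset.sum_const, Finset.card_univ, nsmul_eq_mul]
    split_ifs <;> push_cast <;> ring
  rw [Complex.ofReal_inj.mp hsum]
  split_ifs
  · linarith [Nat.cast_nonneg (α := ℝ) (Fintype.card G)]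
  · linarith

variable {N : ℕ} [NeZero N] {a : ℕ → ℂ} {ε : DirichletCharacter ℂ N}

/-- **Irreducibility.** -/
theorem isIrreducible_of_attached {ρ : GQ →* GL (Fin 2) ℂ} (hρ : HasAttachedRep a ε ρ)
    (hlog : ∃ C : ℝ, ∀ s : ℝ, 1 < s → s ≤ 3 / 2 → ∀ T : Finset ℕ,
      (∀ p ∈ T, p.Prime ∧ ¬ p ∣ N) →
        ∑ p ∈ T, ‖a p‖ ^ 2 * (p : ℝ) ^ (-s) ≤ -Real.log (s - 1) + C) :
    (Deformation.matrixRepresentation ρ).IsIrreducible := by
  classical
  obtain ⟨C₀, hC₀⟩ := hlog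
  by_contra hirr
  obtain ⟨W, hW, hW0, hW1⟩ : ∃ W : Submodule ℂ (Fin 2 → ℂ),
      (∀ σ, ∀ x ∈ W, (ρ σ : Mat ℂ) *ᵥ x ∈ W) ∧ W ≠ ⊥ ∧ W ≠ ⊤ := by
    by_contra hno
    refine hirr ?_
    have : Nontrivial (Subrepresentation (Deformation.matrixRepresentation ρ)) := by
      refine ⟨⊥, ⊤, fun h => ?_⟩
      have h' : (⊥ : Submodule ℂ (Fin 2 → ℂ)) = ⊤ := congrArg Subrepresentation.toSubmodule h
      exact bot_ne_top h'
    refine ⟨fun V => ?_⟩
    by_contra! hV
    refine hno ⟨V.toSubmodule, fun σ x hx => ?_,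
      fun h => hV.1 (Subrepresentation.toSubmodule_injective h),
      fun h => hV.2 (Subrepresentation.toSubmodule_injective h)⟩
    have h2 := V.apply_mem_toSubmodule σ hx
    rwa [Deformation.matrixRepresentation_apply, Matrix.mulVecLin_apply] at h2
  obtain ⟨⟨L, hL, hLfix⟩, hatt⟩ := hρ
  have : Finite ρ.range := finite_range_of_factors ρ ⟨L, hL, hLfix⟩
  set G := ρ.range
  have : Fintype G := Fintype.ofFinite G
  let r : GQ →* G := ρ.rangeRestrict
  have hfin : GaloisFactorsThroughFiniteLevel r :=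
    ⟨L, hL, fun σ hσ => Subtype.ext (hLfix σ hσ)⟩
  let m : G →* Mat ℂ := (Units.coeHom _).comp G.subtype
  obtain ⟨hmean, hinv⟩ := two_le_mean m (W := W) (by
    rintro ⟨_, σ, rfl⟩ x hx
    exact hW σ x hx) hW0 hW1
  let w : G → ℝ := fun g => ‖(m g).trace‖ ^ 2
  set V : Finset ℝ := Finset.univ.image w
  let Cv : ℝ → Set G := fun v => {g | w g = v}
  have hV0 : ∀ v ∈ V, 0 ≤ v := fun v hv => by
    obtain ⟨g, -, rfl⟩ := Finset.mem_image.mp hv
    exact sq_nonneg _
  set S := ∑ v ∈ V, v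
  have hS : 0 ≤ S := Finset.sum_nonneg hV0
  set δ : ℝ := 1 / (2 * (S + 1))
  have hδ : 0 < δ := by positivity
  have hcardG : (0 : ℝ) < Nat.card G := Nat.cast_pos.mpr Nat.card_pos
  have hex : ∀ v : ℝ, ∃ D : ℝ, ∀ s : ℝ, 1 < s → s ≤ 3 / 2 → ∃ T : Finset ℕ,
      (∀ p ∈ T, p.Prime ∧ ¬ p ∣ N ∧ ‖a p‖ ^ 2 = v) ∧
        ((Nat.card (Cv v) : ℝ) / Nat.card G - δ) * -Real.log (s - 1) - D ≤
          ∑ p ∈ T, (p : ℝ) ^ (-s) := fun v => by
    obtain ⟨D, hD⟩ := exists_finset_frobenius_sum_ge r ρ.rangeRestrict_surjective hfin (Cv v)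
      (fun g x hx => by
        have e : (m (g * x * g⁻¹)).trace = (m x).trace := by
          simp only [map_mul]
          exact Matrix.trace_units_conj (g : GL (Fin 2) ℂ) _
        show ‖_‖ ^ 2 = v
        rw [e]; exact hx)
      (fun x hx => by show ‖_‖ ^ 2 = v; rw [hinv]; exact hx) N.divisors
      ((Nat.card (Cv v) : ℝ) / Nat.card G - δ) (by
        rw [sub_mul, div_mul_cancel₀ _ hcardG.ne']; nlinarith)
    refine ⟨D, fun s hs hs' => ?_⟩
    obtain ⟨T, hT, hTsum⟩ := hD s hs hs'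
    refine ⟨T, fun p hp => ?_, hTsum⟩
    obtain ⟨hpp, hpN, A, hA, σ, hσ, hσC⟩ := hT p hp
    rw [Nat.mem_divisors, not_and_or, not_not] at hpN
    have hpN' := hpN.resolve_right (NeZero.ne N)
    refine ⟨hpp, hpN', ?_⟩
    rw [← ((hatt p hpp hpN' A hA).2 σ hσ).1]
    exact hσC
  choose D hD using hex
  -- `L ≤ 2 (C₀ + ∑ v D_v)` for all `s`
  have hbound : ∀ s : ℝ, 1 < s → s ≤ 3 / 2 →
      -Real.log (s - 1) ≤ 2 * (C₀ + ∑ v ∈ V, v * D v) := fun s hs hs' => by
    choose T hT hTsum using fun v => hD v s hs hs'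
    have hdisj : (V : Set ℝ).PairwiseDisjoint T := fun v _ v' _ hne =>
      Finset.disjoint_left.mpr fun p hp hp' => hne ((hT v p hp).2.2.symm.trans (hT v' p hp').2.2)
    have h1 : ∑ v ∈ V, v * ∑ p ∈ T v, (p : ℝ) ^ (-s) ≤ -Real.log (s - 1) + C₀ := by
      refine le_trans (le_of_eq ?_) (hC₀ s hs hs' (V.biUnion T) fun p hp => ?_)
      · rw [Finset.sum_biUnion hdisj]
        refine Finset.sum_congr rfl fun v _ => ?_
        rw [Finset.mul_sum]
        exact Finset.sum_congr rfl fun p hp => by rw [(hT v p hp).2.2]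
      · obtain ⟨v, -, hp⟩ := Finset.mem_biUnion.mp hp
        exact ⟨(hT v p hp).1, (hT v p hp).2.1⟩
    have hcard : ∀ v, (Nat.card (Cv v) : ℝ) = (({g : G | w g = v} : Finset G).card : ℝ) := fun v => by
      rw [Nat.card_eq_fintype_card, Fintype.card_subtype]
      rfl
    have h2 : 3 / 2 ≤ ∑ v ∈ V, v * ((Nat.card (Cv v) : ℝ) / Nat.card G - δ) := by
      simp only [mul_sub, Finset.sum_sub_distrib, ← Finset.sum_mul, mul_div_assoc', hcard]
      rw [← Finset.sum_div]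
      have h3 : ∑ v ∈ V, v * (({g : G | w g = v} : Finset G).card : ℝ) = ∑ g, w g := by
        rw [← Finset.sum_fiberwise_of_maps_to (g := w) (t := V)
          (fun g _ => Finset.mem_image_of_mem w (Finset.mem_univ g))]
        refine Finset.sum_congr rfl fun v _ => ?_
        rw [Finset.sum_congr rfl fun g hg => (Finset.mem_filter.mp hg).2, Finset.sum_const,
          nsmul_eq_mul, mul_comm]
      rw [h3]
      have h4 : 2 ≤ (∑ g, w g) / (Nat.card G : ℝ) := by
        rw [le_div_iff₀ hcardG, Nat.card_eq_fintype_card]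
        exact hmean
      have h5 : S * δ ≤ 1 / 2 := by
        rw [mul_one_div, div_le_iff₀ (by positivity)]
        linarith
      linarith
    have hlog := log_term_nonneg hs hs'
    have h6 : ∑ v ∈ V, v * (((Nat.card (Cv v) : ℝ) / Nat.card G - δ) * -Real.log (s - 1) - D v) ≤
        -Real.log (s - 1) + C₀ :=
      (Finset.sum_le_sum fun v hv => mul_le_mul_of_nonneg_left (hTsum v) (hV0 v hv)).trans h1
    simp only [mul_sub, Finset.sum_sub_distrib, ← mul_assoc, ← Finset.sum_mul] at h6 h2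
    nlinarith
  set K := 2 * (C₀ + ∑ v ∈ V, v * D v)
  have hK := hbound (1 + Real.exp (-(|K| + 1))) (by linarith [Real.exp_pos (-(|K| + 1))]) (by
    have : Real.exp (-(|K| + 1)) ≤ Real.exp (-1) :=
      Real.exp_le_exp.mpr (by linarith [abs_nonneg K])
    have h1 := Real.exp_neg_one_lt_half
    linarith)
  rw [add_sub_cancel_left, Real.log_exp] at hK
  linarith [le_abs_self K]

end FermatAgent.DeligneSerre
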