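import Fermat.Agent.DeligneSerre.Rankin

/-!
# Sums over primes of squares of Hecke eigenvalues

If `a` is multiplicative along a set of primes and `∑ ‖a n‖² n ^ (-s) = O(1 / (s - 1))`, then
`∑ ‖a p‖² p ^ (-s) ≤ K (log (1 / (s - 1)) + 1)`; if moreover the `a p` are bounded, the constant
in front of the logarithm is one.  Only squarefree integers are used.
-/

set_option autoImplicit false

noncomputable section

open Finset

namespace FermatAgent.DeligneSerre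

variable {a : ℕ → ℂ} {P : Set ℕ}

/-- `a` is multiplicative along the primes of `P`. -/
structure PrimeMult (a : ℕ → ℂ) (P : Set ℕ) : Prop where
  one : a 1 = 1
  prime : ∀ p ∈ P, p.Prime
  mul : ∀ p ∈ P, ∀ n : ℕ, ¬ p ∣ n → a (p * n) = a p * a n

theorem PrimeMult.prod_eq (h : PrimeMult a P) {S : Finset ℕ} (hS : (↑S : Set ℕ) ⊆ P) :
    a (∏ p ∈ S, p) = ∏ p ∈ S, a p := by
  induction S using Finset.induction_on with
  | empty => simpa using h.one
  | insert q S hq ih =>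
    have hqP : q ∈ P := hS (mem_insert_self q S)
    rw [prod_insert hq, prod_insert hq, h.mul q hqP _ ?_, ih (fun p hp => hS (mem_insert_of_mem hp))]
    intro hd
    obtain ⟨p, hp, hqp⟩ := ((h.prime q hqP).prime.dvd_finsetProd_iff _).mp hd
    exact hq ((Nat.prime_dvd_prime_iff_eq (h.prime q hqP)
      (h.prime p (hS (mem_insert_of_mem hp)))).mp hqp ▸ hp)

/-- The finite squarefree Euler product is a sum of terms of the series. -/
theorem PrimeMult.prod_one_add_le (h : PrimeMult a P) {M s : ℝ}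
    (hM : ∀ t : Finset ℕ, 0 ∉ t → ∑ n ∈ t, ‖a n‖ ^ 2 * (n : ℝ) ^ (-s) ≤ M) {T : Finset ℕ}
    (hT : (↑T : Set ℕ) ⊆ P) : ∏ p ∈ T, (1 + ‖a p‖ ^ 2 * (p : ℝ) ^ (-s)) ≤ M := by
  have hprime : ∀ S ∈ T.powerset, ∀ p ∈ S, p.Prime := fun S hS p hp =>
    h.prime p (hT (mem_powerset.mp hS hp))
  rw [prod_one_add]
  have hterm : ∀ S ∈ T.powerset, ∏ p ∈ S, ‖a p‖ ^ 2 * (p : ℝ) ^ (-s) =
      ‖a (∏ p ∈ S, p)‖ ^ 2 * ((∏ p ∈ S, p : ℕ) : ℝ) ^ (-s) := fun S hS => by
    rw [h.prod_eq fun p hp => hT (mem_powerset.mp hS hp), norm_prod, ← prod_pow, Nat.cast_prod,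
      ← Real.finsetProd_rpow _ _ (fun p _ => Nat.cast_nonneg p), prod_mul_distrib]
  rw [sum_congr rfl hterm]
  have hinj : Set.InjOn (fun S : Finset ℕ => ∏ p ∈ S, p) ↑T.powerset := fun S hS S' hS' e => by
    rw [← Nat.primeFactors_prod (hprime S hS), ← Nat.primeFactors_prod (hprime S' hS')]
    exact congrArg Nat.primeFactors e
  refine (sum_image (f := fun n : ℕ => ‖a n‖ ^ 2 * (n : ℝ) ^ (-s)) hinj).symm.trans_le (hM _ ?_)
  simp only [mem_image, not_exists, not_and]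
  intro S hS
  exact prod_ne_zero_iff.mpr fun p hp => (hprime S hS p hp).ne_zero

/-- The single terms are bounded. -/
theorem norm_sq_prime_term_le {C : ℝ} (hC : ∀ X : ℕ, ∑ n ∈ range X, ‖a n‖ ^ 2 ≤ C * X) {p : ℕ}
    (hp : p ≠ 0) {s : ℝ} (hs : 1 ≤ s) : ‖a p‖ ^ 2 * (p : ℝ) ^ (-s) ≤ 2 * C := by
  have hC0 : 0 ≤ C := by simpa using (sq_nonneg ‖a 0‖).trans (by simpa using hC 1)
  have hp1 : (1 : ℝ) ≤ p := Nat.one_le_cast.mpr (Nat.pos_of_ne_zero hp)
  calc ‖a p‖ ^ 2 * (p : ℝ) ^ (-s) ≤ C * ((p + 1 : ℕ) : ℝ) * (p : ℝ) ^ (-(1 : ℝ)) :=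
        mul_le_mul ((single_le_sum (f := fun n => ‖a n‖ ^ 2) (fun n _ => sq_nonneg _)
          (self_mem_range_succ p)).trans (hC (p + 1)))
          (Real.rpow_le_rpow_of_exponent_le hp1 (by linarith)) (by positivity) (by positivity)
    _ ≤ 2 * C := by
        rw [Real.rpow_neg_one, Nat.cast_succ, mul_assoc, mul_comm 2 C]
        refine mul_le_mul_of_nonneg_left ?_ hC0
        rw [← div_eq_mul_inv, div_le_iff₀ (by linarith)]
        linarith

variable {C : ℝ}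

theorem PrimeMult.sum_log_le (h : PrimeMult a P)
    (hC : ∀ X : ℕ, ∑ n ∈ range X, ‖a n‖ ^ 2 ≤ C * X) {s : ℝ} (hs : 1 < s) (hs2 : s ≤ 2)
    {T : Finset ℕ} (hT : (↑T : Set ℕ) ⊆ P) :
    ∑ p ∈ T, Real.log (1 + ‖a p‖ ^ 2 * (p : ℝ) ^ (-s)) ≤
      Real.log (1 / (s - 1)) + Real.log (8 * C) := by
  have hC1 : 0 < C := by
    have h2 := hC 2
    rw [sum_range_succ, sum_range_one, h.one] at h2
    simp only [norm_one, Nat.cast_ofNat] at h2
    nlinarith [sq_nonneg ‖a 0‖]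
  rw [← Real.log_prod fun p _ => ne_of_gt (by positivity)]
  refine (Real.log_le_log (prod_pos fun p _ => by positivity)
    (h.prod_one_add_le (fun t ht =>
      sum_mul_rpow_le (fun n => sq_nonneg ‖a n‖) hC hs hs2 t ht) hT)).trans_eq ?_
  rw [Real.log_div (by positivity) (by linarith), one_div, Real.log_inv]
  ring

/-- `∑ ‖a p‖² p ^ (-s) = O(log (1 / (s - 1)) + 1)`. -/
theorem PrimeMult.exists_sum_le (h : PrimeMult a P)
    (hC : ∀ X : ℕ, ∑ n ∈ range X, ‖a n‖ ^ 2 ≤ C * X) :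
    ∃ K : ℝ, 0 ≤ K ∧ ∀ s : ℝ, 1 < s → s ≤ 2 → ∀ T : Finset ℕ, (↑T : Set ℕ) ⊆ P →
      ∑ p ∈ T, ‖a p‖ ^ 2 * (p : ℝ) ^ (-s) ≤ K * (Real.log (1 / (s - 1)) + 1) := by
  set L := max (Real.log (8 * C)) 1
  refine ⟨(1 + |2 * C|) * L, by positivity, fun s hs hs2 T hT => ?_⟩
  have hlog0 : 0 ≤ Real.log (1 / (s - 1)) :=
    Real.log_nonneg (by rw [le_div_iff₀ (by linarith)]; linarith)
  calc ∑ p ∈ T, ‖a p‖ ^ 2 * (p : ℝ) ^ (-s)
      ≤ ∑ p ∈ T, (1 + |2 * C|) * Real.log (1 + ‖a p‖ ^ 2 * (p : ℝ) ^ (-s)) := by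
        refine sum_le_sum fun p hp => ?_
        set y := ‖a p‖ ^ 2 * (p : ℝ) ^ (-s)
        have hy0 : 0 ≤ y := by positivity
        have hy : y ≤ |2 * C| :=
          (norm_sq_prime_term_le hC (h.prime p (hT hp)).ne_zero hs.le).trans (le_abs_self _)
        have hl := Real.one_sub_inv_le_log_of_pos (show 0 < 1 + y by linarith)
        have hl' : y / (1 + y) ≤ Real.log (1 + y) := by
          refine le_trans (le_of_eq ?_) hl
          field_simp
          ring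
        rw [div_le_iff₀ (by linarith)] at hl'
        nlinarith [Real.log_nonneg (show 1 ≤ 1 + y by linarith)]
    _ ≤ (1 + |2 * C|) * (Real.log (1 / (s - 1)) + Real.log (8 * C)) := by
        rw [← mul_sum]
        exact mul_le_mul_of_nonneg_left (h.sum_log_le hC hs hs2 hT) (by positivity)
    _ ≤ (1 + |2 * C|) * L * (Real.log (1 / (s - 1)) + 1) := by
        rw [mul_assoc]
        refine mul_le_mul_of_nonneg_left ?_ (by positivity)
        nlinarith [le_max_left (Real.log (8 * C)) 1, le_max_right (Real.log (8 * C)) 1]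

/-- With bounded eigenvalues the constant in front of the logarithm is one. -/
theorem PrimeMult.exists_sum_le_log (h : PrimeMult a P)
    (hC : ∀ X : ℕ, ∑ n ∈ range X, ‖a n‖ ^ 2 ≤ C * X) {B : ℝ} (hB : ∀ p ∈ P, ‖a p‖ ≤ B) :
    ∃ D : ℝ, ∀ s : ℝ, 1 < s → s ≤ 2 → ∀ T : Finset ℕ, (↑T : Set ℕ) ⊆ P →
      ∑ p ∈ T, ‖a p‖ ^ 2 * (p : ℝ) ^ (-s) ≤ Real.log (1 / (s - 1)) + D := by
  have hsum : Summable fun n : ℕ => (n : ℝ) ^ (-(2 : ℝ)) :=
    Real.summable_nat_rpow.mpr (by norm_num)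
  refine ⟨Real.log (8 * C) + B ^ 4 * ∑' n : ℕ, (n : ℝ) ^ (-(2 : ℝ)), fun s hs hs2 T hT => ?_⟩
  calc ∑ p ∈ T, ‖a p‖ ^ 2 * (p : ℝ) ^ (-s)
      ≤ ∑ p ∈ T, (Real.log (1 + ‖a p‖ ^ 2 * (p : ℝ) ^ (-s)) + B ^ 4 * (p : ℝ) ^ (-(2 : ℝ))) := by
        refine sum_le_sum fun p hp => ?_
        set y := ‖a p‖ ^ 2 * (p : ℝ) ^ (-s) with hy
        have hy0 : 0 ≤ y := by positivity
        have hl : y - y ^ 2 ≤ Real.log (1 + y) := by
          refine le_trans ?_ (Real.one_sub_inv_le_log_of_pos (show 0 < 1 + y by linarith))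
          rw [show 1 - (1 + y)⁻¹ = y / (1 + y) by field_simp; ring,
            le_div_iff₀ (by linarith)]
          nlinarith [pow_nonneg hy0 3]
        have hy2 : y ^ 2 ≤ B ^ 4 * (p : ℝ) ^ (-(2 : ℝ)) := by
          have hp1 : (1 : ℝ) ≤ p := Nat.one_le_cast.mpr (h.prime p (hT hp)).one_lt.le
          rw [hy, mul_pow, ← pow_mul, ← Real.rpow_mul_natCast (Nat.cast_nonneg p)]
          exact mul_le_mul (pow_le_pow_left₀ (norm_nonneg _) (hB p (hT hp)) 4)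
            (Real.rpow_le_rpow_of_exponent_le hp1 (by push_cast; linarith)) (by positivity)
            ((pow_nonneg (norm_nonneg _) 4).trans
              (pow_le_pow_left₀ (norm_nonneg _) (hB p (hT hp)) 4))
        linarith
    _ = (∑ p ∈ T, Real.log (1 + ‖a p‖ ^ 2 * (p : ℝ) ^ (-s))) +
          B ^ 4 * ∑ p ∈ T, (p : ℝ) ^ (-(2 : ℝ)) := by rw [sum_add_distrib, ← mul_sum]
    _ ≤ (Real.log (1 / (s - 1)) + Real.log (8 * C)) +
          B ^ 4 * ∑' n : ℕ, (n : ℝ) ^ (-(2 : ℝ)) :=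
        add_le_add (h.sum_log_le hC hs hs2 hT) (mul_le_mul_of_nonneg_left
          (hsum.sum_le_tsum T fun n _ => Real.rpow_nonneg (Nat.cast_nonneg n) _)
          (by positivity))
    _ = Real.log (1 / (s - 1)) + (Real.log (8 * C) + B ^ 4 * ∑' n : ℕ, (n : ℝ) ^ (-(2 : ℝ))) := by
        ring

open CongruenceSubgroup ModularFormClass in
/-- The Hecke eigen relations give multiplicativity along the good primes. -/
theorem primeMult_qCoeff {N : ℕ} {ε : DirichletCharacter ℂ N} {f : CuspForm (Gamma1 N) 1}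
    (hf₁ : qCoeff f 1 = 1)
    (hT : ∀ p : ℕ, p.Prime → ¬ p ∣ N → ∀ n : ℕ,
      qCoeff f (p * n) + ε (p : ZMod N) * (if p ∣ n then qCoeff f (n / p) else 0) =
        qCoeff f p * qCoeff f n) :
    PrimeMult (qCoeff f) {p | p.Prime ∧ ¬ p ∣ N} :=
  ⟨hf₁, fun _ hp => hp.1, fun p hp n hn => by
    have h := hT p hp.1 hp.2 n
    rwa [if_neg hn, mul_zero, add_zero] at h⟩

open CongruenceSubgroup ModularFormClass in
/-- The mean square bound for `Γ₁(N)`. -/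
theorem exists_sum_qCoeff_sq_le {N : ℕ} [NeZero N] (f : CuspForm (Gamma1 N) 1) :
    ∃ C : ℝ, 0 ≤ C ∧ ∀ X : ℕ, ∑ n ∈ range X, ‖qCoeff f n‖ ^ 2 ≤ C * X :=
  exists_sum_norm_sq_le f (by simp [strictPeriods_Gamma1])

end FermatAgent.DeligneSerre
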