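import Fermat.Agent.DeligneSerre.Image
import Fermat.Agent.DeligneSerre.ImageIrred
import Fermat.Agent.DeligneSerre.PrimeSums

/-!
# The Deligne–Serre representation of a weight one eigenform from its mod `ℓ` representations
-/

set_option autoImplicit false

noncomputable section

namespace FermatAgent.DeligneSerre

open CongruenceSubgroup ModularFormClass

local notation "Qb" => AlgebraicClosure ℚ
local notation "GQ" => AlgebraicClosure ℚ ≃ₐ[ℚ] AlgebraicClosure ℚ

/-- **Deligne–Serre**, given the coefficient field and the mod `ℓ` representations. -/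
theorem exists_galoisRep_of_modLReps {N : ℕ} [NeZero N] {ε : DirichletCharacter ℂ N}
    {f : CuspForm (Gamma1 N) 1} (hf₁ : qCoeff f 1 = 1)
    (hT : ∀ p : ℕ, p.Prime → ¬ p ∣ N → ∀ n : ℕ,
      qCoeff f (p * n) + ε (p : ZMod N) * (if p ∣ n then qCoeff f (n / p) else 0) =
        qCoeff f p * qCoeff f n)
    (he : CoeffField (qCoeff f) ε) (hm : HasModLReps (qCoeff f) ε) :
    ∃ ρ : GQ →* GL (Fin 2) ℂ, GaloisFactorsThroughFiniteLevel ρ ∧
      (Deformation.matrixRepresentation ρ).IsIrreducible ∧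
      ∀ p : ℕ, p.Prime → ¬ p ∣ N →
        ∀ A : ValuationSubring Qb, A.LiesOverPrime p →
          (∀ σ ∈ A.inertiaSubgroupIn ℚ, ρ σ = 1) ∧
          ∀ σ : GQ, A.IsFrobeniusAt σ p →
            ((ρ σ : GL (Fin 2) ℂ) : Matrix (Fin 2) (Fin 2) ℂ).trace = qCoeff f p ∧
            ((ρ σ : GL (Fin 2) ℂ) : Matrix (Fin 2) (Fin 2) ℂ).det = ε (p : ZMod N) := by
  obtain ⟨ρ, hρ⟩ := exists_attachedRep he hm
  obtain ⟨C, -, hC⟩ := exists_sum_qCoeff_sq_le f
  obtain ⟨D, hD⟩ := (primeMult_qCoeff hf₁ hT).exists_sum_le_log hC (B := 2)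
    fun p hp => norm_le_two he hm hp.1 hp.2
  refine ⟨ρ, hρ.1, isIrreducible_of_attached hρ ⟨D, fun s hs hs' T hT' => ?_⟩, hρ.2⟩
  rw [← Real.log_inv, ← one_div]
  exact hD s hs (by linarith) T fun p hp => hT' p hp

end FermatAgent.DeligneSerre
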