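import Fermat.Agent.DeligneSerre.Conjugates.Main
import Fermat.Agent.DeligneSerre.ModL.HasModL
import Fermat.Agent.DeligneSerre.ImageMain

/-!
# The theorem of Deligne and Serre from the torsion models
-/

set_option autoImplicit false

noncomputable section

open CongruenceSubgroup
open ModularFormClass (qCoeff)

namespace FermatAgent.DeligneSerre

local notation "GQ" => AlgebraicClosure ℚ ≃ₐ[ℚ] AlgebraicClosure ℚ

variable {N : ℕ} [NeZero N]

/-- **Deligne–Serre**, given the torsion models. -/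
theorem exists_galoisRep_of_geometry
    (hTM : ∃ B : ℕ, ∀ (ℓ : ℕ) [NeZero ℓ], ℓ.Prime → B ≤ ℓ →
      Nonempty (ModL.TorsionModel (N * ℓ) ℓ))
    {ε : DirichletCharacter ℂ N} {f : CuspForm (Gamma1 N) 1} (hf₁ : qCoeff f 1 = 1)
    (hT : ∀ p : ℕ, p.Prime → ¬ p ∣ N → ∀ n : ℕ,
      qCoeff f (p * n) + ε (p : ZMod N) * (if p ∣ n then qCoeff f (n / p) else 0) =
        qCoeff f p * qCoeff f n) :
    ∃ ρ : GQ →* GL (Fin 2) ℂ, GaloisFactorsThroughFiniteLevel ρ ∧
      (Deformation.matrixRepresentation ρ).IsIrreducible ∧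
      ∀ p : ℕ, p.Prime → ¬ p ∣ N →
        ∀ A : ValuationSubring (AlgebraicClosure ℚ), A.LiesOverPrime p →
          (∀ σ ∈ A.inertiaSubgroupIn ℚ, ρ σ = 1) ∧
          ∀ σ : GQ, A.IsFrobeniusAt σ p →
            ((ρ σ : GL (Fin 2) ℂ) : Matrix (Fin 2) (Fin 2) ℂ).trace = qCoeff f p ∧
            ((ρ σ : GL (Fin 2) ℂ) : Matrix (Fin 2) (Fin 2) ℂ).det = ε (p : ZMod N) := by
  have he := Conjugates.coeffField_weightOne hf₁ hT
  obtain ⟨f₀, hint, h0, hT₀⟩ := Conjugates.exists_integral_weightOne hf₁ hT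
  exact exists_galoisRep_of_modLReps hf₁ hT he
    (hasModLReps_of_torsionModels hint h0 he.isIntegral hT₀ hTM)

end FermatAgent.DeligneSerre
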