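import Fermat.Agent.DeligneSerre.Chebotarev.Division

/-!
# The density of Frobenius elements in a set stable under conjugation and inversion

For a finite quotient `r : G_ℚ → G` and `C ⊆ G` stable under conjugation and inversion, the primes
with Frobenius in `C` have density at least `c` for every `c < |C| / |G|`.
-/

set_option autoImplicit false

noncomputable section

namespace FermatAgent.DeligneSerre

open Filter Topology Asymptotics
open FermatAgent.GalRep (primeSum summable_primeSum primeSum_finset_sum primeSum_const_mul)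
open FermatAgent.LT.ClassField (modUnit modUnit_frobenius modUnit_eq modUnit_spec)
open scoped Classical

local notation "Qb" => AlgebraicClosure ℚ
local notation "GQ" => AlgebraicClosure ℚ ≃ₐ[ℚ] AlgebraicClosure ℚ

attribute [local instance] FermatAgent.RT.isGalois_algClosureRat

/-- The cyclotomic character factors through a finite level. -/
theorem modUnit_factors (N : ℕ) [NeZero N] : GaloisFactorsThroughFiniteLevel (modUnit N) := by
  have hfin : ({ζ : Qb | ζ ^ N = 1}).Finite :=
    ((Polynomial.X ^ N - 1 : Polynomial Qb).roots.toFinset.finite_toSet).subset fun ζ hζ => by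
      simp only [Finset.mem_coe, Multiset.mem_toFinset]
      rw [← Polynomial.C_1, Polynomial.mem_roots
        ((Polynomial.monic_X_pow_sub_C (1 : Qb) (NeZero.ne N)).ne_zero)]
      simp [Polynomial.IsRoot, Set.mem_ofPred_eq ▸ hζ]
  have := hfin.to_subtype
  refine ⟨IntermediateField.adjoin ℚ {ζ : Qb | ζ ^ N = 1},
    IntermediateField.finiteDimensional_adjoin (fun x _ => Algebra.IsIntegral.isIntegral x),
    fun σ hσ => Units.ext ?_⟩
  rw [modUnit_eq N (a := 1) (fun ζ hζ => by
    rw [pow_one]; exact hσ ζ (IntermediateField.subset_adjoin ℚ _ hζ)), Nat.cast_one, Units.val_one]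

/-- Complex conjugation is not trivial on cube roots of unity. -/
theorem modUnit_three_conj : modUnit 3 complexConjugation ≠ 1 := by
  intro h
  have h2 : ((modUnit 3 complexConjugation : (ZMod 3)ˣ) : ZMod 3) = ((2 : ℕ) : ZMod 3) := by
    refine modUnit_eq 3 fun ζ hζ => complexEmbedding.toRingHom.injective ?_
    show complexEmbedding (complexConjugation ζ) = complexEmbedding (ζ ^ 2)
    rw [complexEmbedding_complexConjugation, map_pow]
    have h1 : complexEmbedding ζ ^ 3 = 1 := by rw [← map_pow, hζ, map_one]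
    rw [← Complex.inv_eq_conj (Complex.norm_eq_one_of_pow_eq_one h1 three_ne_zero)]
    exact inv_eq_of_mul_eq_one_right (by rw [← h1]; ring)
  rw [h, Units.val_one] at h2
  exact absurd h2 (by decide)

/-- Independent values of the cyclotomic characters at two primes. -/
theorem exists_modUnit_pair {m m' : ℕ} [NeZero m] [NeZero m'] (h : m.Coprime m')
    (a : (ZMod m)ˣ) (b : (ZMod m')ˣ) : ∃ τ : GQ, modUnit m τ = a ∧ modUnit m' τ = b := by
  have : NeZero (m * m') := ⟨mul_ne_zero (NeZero.ne m) (NeZero.ne m')⟩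
  set z : ZMod (m * m') := (ZMod.chineseRemainder h).symm ((a : ZMod m), (b : ZMod m'))
  have hz : IsUnit z := (Prod.isUnit_iff.mpr ⟨a.isUnit, b.isUnit⟩).map (ZMod.chineseRemainder h).symm
  obtain ⟨p, -, hp, hpz⟩ := Nat.forall_exists_prime_gt_and_eq_mod hz 0
  have hc : ((p : ZMod m), (p : ZMod m')) = ((a : ZMod m), (b : ZMod m')) := by
    have := congrArg (ZMod.chineseRemainder h) hpz
    rw [RingEquiv.apply_symm_apply, map_natCast] at this
    exact this
  rw [Prod.mk.injEq] at hc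
  obtain ⟨A, τ, hA, hτ⟩ := FermatAgent.RT.exists_place_isFrobeniusAt hp
  have hcop : p.Coprime (m * m') := by
    rw [← ZMod.isUnit_iff_coprime, hpz]
    exact hz
  exact ⟨τ, Units.ext ((modUnit_frobenius (Nat.Coprime.coprime_mul_right_right hcop) hA hτ).trans hc.1),
    Units.ext ((modUnit_frobenius (Nat.Coprime.coprime_mul_left_right hcop) hA hτ).trans hc.2)⟩

variable {G : Type} [Group G] [Finite G]

/-- A prime `m ≡ 1 (mod n)` whose cyclotomic character is independent of `r`. -/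
theorem exists_crossing_prime (r : GQ →* G) (hr : Function.Surjective r) {n : ℕ} (hn : n ≠ 0) :
    ∃ m : ℕ, ∃ _ : Fact m.Prime, n ∣ m - 1 ∧
      Function.Surjective (r.prod (modUnit m)) := by
  let P : Set ℕ := {m | m.Prime ∧ (m : ZMod n) = 1}
  have : NeZero n := ⟨hn⟩
  have hP : P.Infinite := Nat.infinite_setOfPred_prime_and_eq_mod isUnit_one
  let F : ℕ → Set G := fun m =>
    if h : m.Prime then
      haveI : NeZero m := ⟨h.ne_zero⟩
      {g | ∃ τ, r τ = g ∧ modUnit m τ = 1}
    else ∅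
  obtain ⟨m, hm, m', hm', hne, he⟩ :=
    hP.exists_ne_map_eq_of_mapsTo (f := F) (t := Set.univ) (fun _ _ => Set.mem_univ _)
      Set.finite_univ
  have : Fact m.Prime := ⟨hm.1⟩
  have : Fact m'.Prime := ⟨hm'.1⟩
  have hFm : F m = {g | ∃ τ, r τ = g ∧ modUnit m τ = 1} := dif_pos hm.1
  have hFm' : F m' = {g | ∃ τ, r τ = g ∧ modUnit m' τ = 1} := dif_pos hm'.1
  have hcop : m.Coprime m' := (Nat.coprime_primes hm.1 hm'.1).mpr hne
  have hall : ∀ g : G, g ∈ F m := by
    intro g
    obtain ⟨τ, rfl⟩ := hr g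
    obtain ⟨τ₁, h₁, h₁'⟩ := exists_modUnit_pair hcop (modUnit m τ) 1
    have : r τ₁ ∈ F m := by rw [he, hFm']; exact ⟨τ₁, rfl, h₁'⟩
    rw [hFm] at this ⊢
    obtain ⟨τ₂, h₂, h₂'⟩ := this
    refine ⟨τ * τ₁⁻¹ * τ₂, ?_, ?_⟩
    · rw [map_mul, map_mul, map_inv, h₂, inv_mul_cancel_right]
    · rw [map_mul, map_mul, map_inv, h₁, mul_inv_cancel, one_mul, h₂']
  refine ⟨m, ⟨hm.1⟩, ?_, fun q => ?_⟩
  · exact (Nat.modEq_iff_dvd' hm.1.one_lt.le).mp
      ((ZMod.natCast_eq_natCast_iff _ _ _).mp (by rw [hm.2, Nat.cast_one])).symm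
  · obtain ⟨τ, hτ, -⟩ := exists_modUnit_pair hcop q.2 1
    have := hall (q.1 * (r τ)⁻¹)
    rw [hFm] at this
    obtain ⟨τ', h', h''⟩ := this
    refine ⟨τ' * τ, Prod.ext ?_ ?_⟩
    · show r (τ' * τ) = q.1
      rw [map_mul, h', inv_mul_cancel_right]
    · show modUnit m (τ' * τ) = q.2
      rw [map_mul, h'', one_mul, hτ]

/-- Most units modulo a prime `m ≡ 1 (mod M ^ k)` have order divisible by `M`. -/
theorem card_filter_not_dvd_orderOf_le {m M k : ℕ} [Fact m.Prime] (hM : M ≠ 0) (hk : 1 ≤ k)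
    (hdvd : M ^ k ∣ m - 1) :
    ((Finset.univ.filter fun u : (ZMod m)ˣ => ¬ M ∣ orderOf u).card : ℝ) ≤
      (M : ℝ) / 2 ^ k * (m - 1 : ℕ) := by
  have : IsCyclic (ZMod m)ˣ := ZMod.isCyclic_units_prime (Fact.out : m.Prime)
  have hq : m - 1 ≠ 0 := (Nat.sub_pos_of_lt (Fact.out : m.Prime).one_lt).ne'
  have hcover : (Finset.univ.filter fun u : (ZMod m)ˣ => ¬ M ∣ orderOf u) ⊆
      M.primeFactors.biUnion fun l =>
        Finset.univ.filter fun u : (ZMod m)ˣ => u ^ ((m - 1) / l ^ k) = 1 := by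
    intro u hu
    simp only [Finset.mem_filter, Finset.mem_univ, true_and] at hu
    simp only [Finset.mem_biUnion, Finset.mem_filter, Finset.mem_univ, true_and]
    have hord : orderOf u ∣ m - 1 := by
      rw [← Nat.totient_prime (Fact.out : m.Prime), ← ZMod.card_units_eq_totient]
      exact orderOf_dvd_card
    rw [← Nat.factorization_le_iff_dvd hM (orderOf_pos u).ne', Finsupp.le_def, not_forall] at hu
    obtain ⟨l, hl⟩ := hu
    rw [not_le] at hl
    have hlM : l ∈ M.primeFactors := by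
      rw [← Nat.support_factorization, Finsupp.mem_support_iff]
      omega
    refine ⟨l, hlM, orderOf_dvd_iff_pow_eq_one.mp ?_⟩
    have hlp := Nat.prime_of_mem_primeFactors hlM
    have hlk : l ^ k ∣ m - 1 :=
      (pow_dvd_pow_of_dvd (Nat.dvd_of_mem_primeFactors hlM) k).trans hdvd
    rw [← Nat.factorization_le_iff_dvd (orderOf_pos u).ne'
      (Nat.div_pos (Nat.le_of_dvd (Nat.pos_of_ne_zero hq) hlk) (pow_pos hlp.pos k)).ne',
      Finsupp.le_def]
    intro i
    rw [Nat.factorization_div hlk, Finsupp.tsub_apply, hlp.factorization_pow, Finsupp.single_apply]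
    have h1 := Finsupp.le_def.mp
      ((Nat.factorization_le_iff_dvd (orderOf_pos u).ne' hq).mpr hord) i
    split_ifs with hi
    · subst hi
      have h2 := Finsupp.le_def.mp
        ((Nat.factorization_le_iff_dvd (pow_ne_zero k hM) hq).mpr hdvd) l
      rw [Nat.factorization_pow, Finsupp.smul_apply, smul_eq_mul] at h2
      have h3 : k * (orderOf u).factorization l + k ≤ k * M.factorization l := by
        rw [← Nat.mul_succ]
        exact Nat.mul_le_mul_left k hl
      have h4 : (orderOf u).factorization l ≤ k * (orderOf u).factorization l :=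
        Nat.le_mul_of_pos_left _ hk
      omega
    · simpa using h1
  refine (Nat.cast_le.mpr ((Finset.card_le_card hcover).trans Finset.card_biUnion_le)).trans ?_
  rw [Nat.cast_sum]
  refine (Finset.sum_le_sum (g := fun _ => ((m - 1 : ℕ) : ℝ) / 2 ^ k) fun l hl => ?_).trans ?_
  · have hlp := Nat.prime_of_mem_primeFactors hl
    have hlk : l ^ k ∣ m - 1 :=
      (pow_dvd_pow_of_dvd (Nat.dvd_of_mem_primeFactors hl) k).trans hdvd
    refine (Nat.cast_le.mpr (IsCyclic.card_pow_eq_one_le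
      (Nat.div_pos (Nat.le_of_dvd (Nat.pos_of_ne_zero hq) hlk) (pow_pos hlp.pos k)))).trans ?_
    refine (Nat.cast_div_le).trans ?_
    rw [Nat.cast_pow]
    exact div_le_div_of_nonneg_left (Nat.cast_nonneg _) (by positivity)
      (pow_le_pow_left₀ (by norm_num) (by exact_mod_cast hlp.two_le) k)
  · rw [Finset.sum_const, nsmul_eq_mul, mul_div_assoc', div_mul_eq_mul_div]
    gcongr
    calc M.primeFactors.card ≤ (Finset.Icc 1 M).card := Finset.card_le_card fun l hl =>
          Finset.mem_Icc.mpr ⟨(Nat.prime_of_mem_primeFactors hl).one_lt.le,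
            Nat.le_of_mem_primeFactors hl⟩
      _ = M := by simp

/-- The indicator of the primes outside `S` with chosen Frobenius in `C`. -/
def frobInd (r : GQ →* G) (C : Set G) (S : Finset ℕ) (p : Nat.Primes) : ℝ :=
  if (p : ℕ) ∉ S ∧ r (frobElt p) ∈ C then 1 else 0

omit [Finite G] in
theorem abs_frobInd_le (r : GQ →* G) (C : Set G) (S : Finset ℕ) (p : Nat.Primes) :
    |frobInd r C S p| ≤ 1 := by
  rw [frobInd]
  split_ifs <;> simp

/-- The density bound in asymptotic form. -/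
theorem exists_primeSum_frobInd_ge (r : GQ →* G) (hr : Function.Surjective r)
    (hfin : GaloisFactorsThroughFiniteLevel r) {C : Set G}
    (hC : ∀ g, ∀ x ∈ C, g * x * g⁻¹ ∈ C) (hCinv : ∀ x ∈ C, x⁻¹ ∈ C) (S : Finset ℕ) {c : ℝ}
    (hc : c * Nat.card G < Nat.card C) :
    ∃ D : ℝ, ∀ᶠ s in 𝓝[>] (1 : ℝ),
      c * -Real.log (s - 1) - D ≤ primeSum (frobInd r C S) s := by
  let _ := Fintype.ofFinite G
  -- add the cube roots of unity
  let r₃ := r.prod (modUnit 3)
  let G' := r₃.range
  let _ := Fintype.ofFinite G'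
  let r' : GQ →* G' := r₃.rangeRestrict
  have hr' : Function.Surjective r' := r₃.rangeRestrict_surjective
  have hfin' : GaloisFactorsThroughFiniteLevel r' := by
    obtain ⟨L₁, hL₁, h1⟩ := hfin
    obtain ⟨L₂, hL₂, h2⟩ := modUnit_factors 3
    exact ⟨L₁ ⊔ L₂, IntermediateField.finiteDimensional_sup L₁ L₂, fun σ hσ => Subtype.ext
      (Prod.ext (h1 σ fun x hx => hσ x (le_sup_left (b := L₂) hx))
        (h2 σ fun x hx => hσ x (le_sup_right (a := L₁) hx)))⟩
  have hconj : ∀ g : G', g⁻¹ * r' complexConjugation * g ≠ 1 := by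
    intro g h
    have h' := congrArg (fun q : G' => ((q : G × (ZMod 3)ˣ)).2) h
    simp only [Subgroup.coe_mul, Subgroup.coe_inv, Prod.snd_mul, Prod.snd_inv, Subgroup.coe_one,
      Prod.snd_one] at h'
    rw [mul_comm, ← mul_assoc, mul_inv_cancel, one_mul] at h'
    exact modUnit_three_conj h'
  let π : G' →* G := (MonoidHom.fst G (ZMod 3)ˣ).comp G'.subtype
  have hπ : Function.Surjective π := fun g => by
    obtain ⟨τ, rfl⟩ := hr g
    exact ⟨r' τ, rfl⟩
  let C' : Finset G' := Finset.univ.filter fun σ => π σ ∈ C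
  have hcards : (C'.card : ℝ) * Nat.card G = Nat.card C * Nat.card G' := by
    have h1 : C'.card = Nat.card π.ker * Nat.card C := by
      rw [← nat_card_preimage π hπ C, Nat.card_eq_fintype_card, Fintype.card_subtype]
    have h2 : Nat.card G' = Nat.card π.ker * Nat.card G := by
      rw [← Nat.card_congr (Equiv.Set.univ G), ← nat_card_preimage π hπ Set.univ]
      exact Nat.card_congr (Equiv.subtypeUnivEquiv fun x => Set.mem_univ (π x)).symm
    rw [h1, h2]
    push_cast
    ring
  -- the modulus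
  set M : ℕ := 2 * Nat.card G'
  have hM : M ≠ 0 := mul_ne_zero two_ne_zero Nat.card_pos.ne'
  obtain ⟨k, hk1, hk⟩ : ∃ k : ℕ, 1 ≤ k ∧
      (M : ℝ) * Nat.card C ≤ 2 ^ k * (Nat.card C - c * Nat.card G) := by
    obtain ⟨k, hk⟩ := pow_unbounded_of_one_lt
      ((M : ℝ) * Nat.card C / (Nat.card C - c * Nat.card G)) one_lt_two
    refine ⟨k + 1, Nat.le_add_left 1 k, ?_⟩
    rw [div_lt_iff₀ (by linarith)] at hk
    have : (2 : ℝ) ^ k * (Nat.card C - c * Nat.card G) ≤
        2 ^ (k + 1) * (Nat.card C - c * Nat.card G) :=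
      mul_le_mul_of_nonneg_right (pow_le_pow_right₀ one_le_two k.le_succ) (by linarith)
    linarith
  obtain ⟨m, hmF, hmdvd, hsurj⟩ := exists_crossing_prime r' hr' (pow_ne_zero k hM)
  set R := r'.prod (modUnit m)
  have hfinR : GaloisFactorsThroughFiniteLevel R := by
    obtain ⟨L₁, hL₁, h1⟩ := hfin'
    obtain ⟨L₂, hL₂, h2⟩ := modUnit_factors m
    exact ⟨L₁ ⊔ L₂, IntermediateField.finiteDimensional_sup L₁ L₂, fun σ hσ =>
      Prod.ext (h1 σ fun x hx => hσ x (le_sup_left (b := L₂) hx))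
        (h2 σ fun x hx => hσ x (le_sup_right (a := L₁) hx))⟩
  set φ : ℝ := ((m - 1 : ℕ) : ℝ)
  have hφ0 : 0 < φ := Nat.cast_pos.mpr (Nat.sub_pos_of_lt (Fact.out : m.Prime).one_lt)
  have hφ : (Nat.card (ZMod m)ˣ : ℝ) = φ := by
    rw [Nat.card_eq_fintype_card, ZMod.card_units_eq_totient, Nat.totient_prime (Fact.out : m.Prime)]
  set good := Finset.univ.filter fun u : (ZMod m)ˣ => M ∣ orderOf u
  have hgood : (1 - (M : ℝ) / 2 ^ k) * φ ≤ good.card := by
    have h1 := card_filter_not_dvd_orderOf_le (m := m) hM hk1 hmdvd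
    have h2 := Finset.card_filter_add_card_filter_not
      (s := (Finset.univ : Finset (ZMod m)ˣ)) (fun u => M ∣ orderOf u)
    rw [Finset.card_univ, ← Nat.card_eq_fintype_card] at h2
    have h3 : (good.card : ℝ) +
        ((Finset.univ.filter fun u : (ZMod m)ˣ => ¬ M ∣ orderOf u).card : ℝ) = φ := by
      rw [← hφ]
      exact_mod_cast h2
    change ((Finset.univ.filter fun u : (ZMod m)ˣ => ¬ M ∣ orderOf u).card : ℝ) ≤ _ at h1
    linarith
  -- crossed elements
  have hy : ∀ σ : G', ∀ u ∈ good, LogAsymp (primeSum fun p =>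
      (conjCount R {(σ, u)} p : ℝ) + (conjCount R {(σ, u)⁻¹} p : ℝ)) 2 := by
    intro σ u hu
    have hu : M ∣ orderOf u := (Finset.mem_filter.mp hu).2
    have hσu : 2 * orderOf σ ∣ orderOf u :=
      (Nat.mul_dvd_mul_left 2 (orderOf_dvd_natCard σ)).trans hu
    have hord : orderOf u = orderOf ((σ, u) : G' × (ZMod m)ˣ) := by
      rw [Prod.orderOf, Nat.lcm_eq_right_iff_dvd.mpr ((dvd_mul_left _ 2).trans hσu)]
    refine logAsymp_conjCount hsurj hfinR (MonoidHom.snd G' (ZMod m)ˣ) (fun _ => rfl) _ hord ?_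
    intro x hx
    obtain ⟨j, hj⟩ := Subgroup.mem_zpowers_iff.mp hx
    have hj1 : σ ^ j = x.1⁻¹ * r' complexConjugation * x.1 := congrArg Prod.fst hj
    have hj2 : u ^ j = x.2⁻¹ * modUnit m complexConjugation * x.2 := congrArg Prod.snd hj
    rw [mul_comm, ← mul_assoc, mul_inv_cancel, one_mul] at hj2
    have h2 : u ^ (2 * j) = 1 := by
      rw [mul_comm, zpow_mul, hj2, zpow_two, ← map_mul, complexConjugation_mul_self, map_one]
    rw [← orderOf_dvd_iff_zpow_eq_one] at h2
    have h3 : ((2 * orderOf σ : ℕ) : ℤ) ∣ 2 * j := (Int.natCast_dvd_natCast.mpr hσu).trans h2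
    rw [Nat.cast_mul, Nat.cast_ofNat, mul_dvd_mul_iff_left (two_ne_zero : (2 : ℤ) ≠ 0),
      orderOf_dvd_iff_zpow_eq_one, hj1] at h3
    exact hconj _ h3
  -- the conjugation counts
  have hcount : ∀ (σ : G') (u : (ZMod m)ˣ) (p : Nat.Primes), (conjCount R {(σ, u)} p : ℝ) =
      if modUnit m (frobElt p) = u then φ * conjCount r' {σ} p else 0 := by
    intro σ u p
    have key : ∀ x : G' × (ZMod m)ˣ, x⁻¹ * R (frobElt p) * x ∈ ({(σ, u)} : Set _) ↔
        x.1⁻¹ * r' (frobElt p) * x.1 = σ ∧ modUnit m (frobElt p) = u := by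
      intro x
      have h2 : x.2⁻¹ * modUnit m (frobElt p) * x.2 = modUnit m (frobElt p) := by
        rw [mul_comm, ← mul_assoc, mul_inv_cancel, one_mul]
      rw [Set.mem_singleton_iff, Prod.ext_iff]
      simp only [R, Prod.fst_mul, Prod.fst_inv, Prod.snd_mul, Prod.snd_inv, MonoidHom.prod_apply, h2]
    split_ifs with h
    · rw [← hφ, mul_comm, ← Nat.cast_mul, Nat.cast_inj]
      simp only [conjCount]
      rw [← Nat.card_prod]
      refine Nat.card_congr ((Equiv.subtypeEquivRight fun x => (key x).trans (and_iff_left h)).trans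
        { toFun := fun x => (⟨x.1.1, Set.mem_singleton_iff.mpr x.2⟩, x.1.2)
          invFun := fun q => ⟨(q.1.1, q.2), Set.mem_singleton_iff.mp q.1.2⟩
          left_inv := fun _ => rfl
          right_inv := fun _ => rfl })
    · rw [Nat.cast_eq_zero, conjCount, Nat.card_eq_zero]
      exact Or.inl ⟨fun x => h ((key x.1).mp x.2).2⟩
  have htot : LogAsymp (fun s => ∑ q ∈ C' ×ˢ good, primeSum (fun p =>
      (conjCount R {q} p : ℝ) + (conjCount R {q⁻¹} p : ℝ)) s)
      (2 * ((C'.card : ℝ) * good.card)) := by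
    have h := LogAsymp.fun_sum (C' ×ˢ good) fun q hq => hy q.1 q.2 (Finset.mem_product.mp hq).2
    rw [Finset.sum_const, Finset.card_product, nsmul_eq_mul, Nat.cast_mul, mul_comm] at h
    exact h
  -- the pointwise bound
  let CR : ℝ := 2 * Nat.card (G' × (ZMod m)ˣ)
  have hbR : ∀ (q : G' × (ZMod m)ˣ) (p : Nat.Primes),
      |(conjCount R {q} p : ℝ) + (conjCount R {q⁻¹} p : ℝ)| ≤ CR := fun q p =>
    (abs_add_le _ _).trans ((add_le_add (abs_conjCount_le R _ p) (abs_conjCount_le R _ p)).trans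
      (two_mul _).ge)
  set K : ℝ := 2 * φ * Nat.card G'
  have hK : 0 < K := mul_pos (mul_pos two_pos hφ0) (Nat.cast_pos.mpr Nat.card_pos)
  have hle : ∀ p : Nat.Primes, ∑ q ∈ C' ×ˢ good,
      ((conjCount R {q} p : ℝ) + (conjCount R {q⁻¹} p : ℝ)) ≤ K * frobInd r C ∅ p := by
    intro p
    have hC' : ∀ σ ∈ C', σ⁻¹ ∈ C' := fun σ hσ => Finset.mem_filter.mpr
      ⟨Finset.mem_univ _, by rw [map_inv]; exact hCinv _ (Finset.mem_filter.mp hσ).2⟩
    have hsumA : (∑ σ ∈ C', (conjCount r' {σ} p : ℝ)) = Nat.card G' * frobInd r C ∅ p := by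
      rw [← Nat.cast_sum]
      have h1 : ∑ σ ∈ C', conjCount r' {σ} p =
          (Finset.univ.filter fun g : G' => g⁻¹ * r' (frobElt p) * g ∈ C').card := by
        refine Eq.trans ?_ (Finset.card_eq_sum_card_fiberwise (t := C')
          (f := fun g => g⁻¹ * r' (frobElt p) * g)
          (fun g hg => (Finset.mem_filter.mp (Finset.mem_coe.mp hg)).2)).symm
        refine Finset.sum_congr rfl fun σ hσ => ?_
        rw [conjCount, Nat.card_eq_fintype_card, Fintype.card_subtype, Finset.filter_filter]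
        exact congrArg Finset.card (Finset.filter_congr fun g _ =>
          ⟨fun h => ⟨by simpa [Set.mem_singleton_iff.mp h] using hσ, Set.mem_singleton_iff.mp h⟩,
            fun h => Set.mem_singleton_iff.mpr h.2⟩)
      rw [h1]
      have hiff : ∀ g : G', g⁻¹ * r' (frobElt p) * g ∈ C' ↔ r (frobElt p) ∈ C := fun g => by
        simp only [C', Finset.mem_filter, Finset.mem_univ, true_and, map_mul, map_inv,
          show π (r' (frobElt p)) = r (frobElt p) from rfl]
        refine ⟨fun h => ?_, fun h => ?_⟩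
        · have := hC (π g) _ h
          simpa [mul_assoc] using this
        · have := hC (π g)⁻¹ _ h
          simpa [mul_assoc] using this
      rw [Finset.filter_congr fun g _ => hiff g, frobInd]
      by_cases h : r (frobElt p) ∈ C <;> simp [h, Nat.card_eq_fintype_card]
    have hsumB : (∑ σ ∈ C', (conjCount r' {σ⁻¹} p : ℝ)) = ∑ σ ∈ C', (conjCount r' {σ} p : ℝ) :=
      Finset.sum_nbij' (fun σ => σ⁻¹) (fun σ => σ⁻¹) hC' hC' (fun σ _ => inv_inv σ)
        (fun σ _ => inv_inv σ) fun σ _ => rfl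
    rw [Finset.sum_product]
    calc ∑ σ ∈ C', ∑ u ∈ good, ((conjCount R {(σ, u)} p : ℝ) + (conjCount R {(σ, u)⁻¹} p : ℝ))
        ≤ ∑ σ ∈ C', (φ * conjCount r' {σ} p + φ * conjCount r' {σ⁻¹} p) := by
          refine Finset.sum_le_sum fun σ _ => ?_
          simp only [Prod.inv_mk, hcount, Finset.sum_add_distrib]
          refine add_le_add ?_ ?_
          · rw [Finset.sum_ite_eq]
            split_ifs <;> [exact le_rfl; positivity]
          · rw [← Finset.sum_filter, Finset.sum_const, nsmul_eq_mul]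
            refine mul_le_of_le_one_left (by positivity) (Nat.cast_le_one.mpr ?_)
            exact Finset.card_le_one.mpr fun a ha b hb =>
              inv_injective ((Finset.mem_filter.mp ha).2.symm.trans (Finset.mem_filter.mp hb).2)
      _ = K * frobInd r C ∅ p := by
          rw [Finset.sum_add_distrib, ← Finset.mul_sum, ← Finset.mul_sum, hsumB, hsumA]
          ring
  obtain ⟨B, hB⟩ := htot.bound
  -- throw away `S`
  obtain ⟨B', hB'⟩ := (FermatAgent.GalRep.primeSum_sub_isBigO (abs_frobInd_le r C ∅)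
    (abs_frobInd_le r C S) ((S.finite_toSet.preimage Subtype.val_injective.injOn).subset
      fun p (hp : frobInd r C ∅ p ≠ frobInd r C S p) => by
        by_contra hS
        exact hp (by simp [frobInd, Finset.mem_coe.not.mp hS]))).bound
  refine ⟨|B| / K + |B'|, ?_⟩
  filter_upwards [hB, hB', self_mem_nhdsWithin,
    nhdsWithin_le_nhds (Iic_mem_nhds (by norm_num : (1 : ℝ) < 2))] with s hs hs' (h1 : 1 < s)
    (h2 : s ≤ 2)
  have hL : 0 ≤ -Real.log (s - 1) :=
    neg_nonneg.mpr (Real.log_nonpos (by linarith) (by linarith))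
  simp only [norm_one, mul_one, Real.norm_eq_abs, abs_le] at hs hs'
  have h3 : (∑ q ∈ C' ×ˢ good, primeSum (fun p =>
      (conjCount R {q} p : ℝ) + (conjCount R {q⁻¹} p : ℝ)) s) ≤
      K * primeSum (frobInd r C ∅) s := by
    rw [← primeSum_finset_sum _ (C := CR) (fun q _ p => hbR q p) h1, ← primeSum_const_mul]
    refine Summable.tsum_le_tsum (fun p => ?_)
      (summable_primeSum (C := (C' ×ˢ good).card • CR) (fun p => ?_) h1)
      (summable_primeSum (C := K) (fun p => ?_) h1)
    · exact mul_le_mul_of_nonneg_right (hle p) (Real.rpow_nonneg (Nat.cast_nonneg _) _)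
    · exact (Finset.abs_sum_le_sum_abs _ _).trans
        ((Finset.sum_le_card_nsmul _ _ CR fun q _ => hbR q p))
    · rw [abs_mul, abs_of_pos hK]
      exact mul_le_of_le_one_right hK.le (abs_frobInd_le r C ∅ p)
  -- the constant
  have h4 : c * K ≤ 2 * ((C'.card : ℝ) * good.card) := by
    have hG : (0 : ℝ) < Nat.card G := Nat.cast_pos.mpr Nat.card_pos
    have hck : c * Nat.card G ≤ Nat.card C * (1 - (M : ℝ) / 2 ^ k) := by
      rw [mul_sub, mul_one, le_sub_comm, mul_div_assoc', div_le_iff₀ (by positivity)]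
      linarith
    refine le_trans ?_ (mul_le_mul_of_nonneg_left
      (mul_le_mul_of_nonneg_left hgood (Nat.cast_nonneg _)) zero_le_two)
    refine le_of_mul_le_mul_right ?_ hG
    calc c * K * Nat.card G = (c * Nat.card G) * (2 * φ * Nat.card G') := by ring
      _ ≤ (Nat.card C * (1 - (M : ℝ) / 2 ^ k)) * (2 * φ * Nat.card G') :=
          mul_le_mul_of_nonneg_right hck hK.le
      _ = 2 * ((C'.card : ℝ) * ((1 - (M : ℝ) / 2 ^ k) * φ)) * Nat.card G := by
          linear_combination -(2 * φ * (1 - (M : ℝ) / 2 ^ k)) * hcards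
  have h6 : K * (c * -Real.log (s - 1)) ≤ K * (primeSum (frobInd r C ∅) s + |B| / K) := by
    have h5 := mul_le_mul_of_nonneg_right h4 hL
    rw [mul_add, mul_div_cancel₀ _ hK.ne']
    linarith [hs.1, le_abs_self B]
  linarith [le_of_mul_le_mul_left h6 hK, hs'.2, le_abs_self B']

/-- **Chebotarev, uniform lower form** for sets stable under conjugation and inversion. -/
theorem exists_finset_frobenius_sum_ge (r : GQ →* G) (hr : Function.Surjective r)
    (hfin : GaloisFactorsThroughFiniteLevel r) (C : Set G)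
    (hC : ∀ g, ∀ x ∈ C, g * x * g⁻¹ ∈ C) (hCinv : ∀ x ∈ C, x⁻¹ ∈ C) (S : Finset ℕ) (c : ℝ)
    (hc : c * Nat.card G < Nat.card C) :
    ∃ D : ℝ, ∀ s : ℝ, 1 < s → s ≤ 3 / 2 → ∃ T : Finset ℕ,
      (∀ p ∈ T, p.Prime ∧ p ∉ S ∧ ∃ A : ValuationSubring Qb, A.LiesOverPrime p ∧
        ∃ τ : GQ, A.IsFrobeniusAt τ p ∧ r τ ∈ C) ∧
      c * -Real.log (s - 1) - D ≤ ∑ p ∈ T, (p : ℝ) ^ (-s) := by
  obtain ⟨D, hD⟩ := exists_primeSum_frobInd_ge r hr hfin hC hCinv S hc
  obtain ⟨b, hb, hbD⟩ := mem_nhdsGT_iff_exists_Ioo_subset.mp hD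
  refine ⟨max (D + 1) (|c| * (|Real.log (b - 1)| + |Real.log (1 / 2)|)), fun s hs hs' => ?_⟩
  by_cases hsb : s < b
  · have h := hbD ⟨hs, hsb⟩
    simp only [Set.mem_ofPred_eq] at h
    obtain ⟨T₀, hT₀⟩ := ((summable_primeSum (abs_frobInd_le r C S) hs).hasSum.eventually
      (Ioi_mem_nhds (sub_one_lt _))).exists
    refine ⟨(T₀.filter fun p : Nat.Primes => (p : ℕ) ∉ S ∧ r (frobElt p) ∈ C).map
      ⟨Subtype.val, Subtype.val_injective⟩, ?_, ?_⟩
    · intro p hp
      obtain ⟨q, hq, rfl⟩ := Finset.mem_map.mp hp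
      obtain ⟨-, h1, h2⟩ := Finset.mem_filter.mp hq
      exact ⟨q.2, h1, placeOver q, placeOver_liesOverPrime q, frobElt q,
        isFrobeniusAt_frobElt q, h2⟩
    · refine le_trans ?_ (le_of_eq ((Finset.sum_map _ _ fun p : ℕ => (p : ℝ) ^ (-s)).trans
        (Finset.sum_filter _ _)).symm)
      refine le_trans ?_ (le_of_lt (hT₀.trans_le (le_of_eq (Finset.sum_congr rfl fun p _ => ?_))))
      · rw [primeSum] at h
        linarith [le_max_left (D + 1) (|c| * (|Real.log (b - 1)| + |Real.log (1 / 2)|))]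
      · simp only [frobInd, ite_mul, one_mul, zero_mul]
        rfl
  · refine ⟨∅, by simp, ?_⟩
    rw [Finset.sum_empty, sub_nonpos]
    refine le_trans ?_ (le_max_right _ _)
    have hb1 : 0 < b - 1 := by simpa using hb
    have h1 : Real.log (b - 1) ≤ Real.log (s - 1) := Real.log_le_log hb1 (by linarith)
    have h2 : Real.log (s - 1) ≤ Real.log (1 / 2) := Real.log_le_log (by linarith) (by linarith)
    calc c * -Real.log (s - 1) ≤ |c| * |Real.log (s - 1)| := by
          rw [← abs_mul, mul_neg, ← neg_mul, neg_mul, neg_le]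
          exact neg_abs_le _
      _ ≤ |c| * (|Real.log (b - 1)| + |Real.log (1 / 2)|) := by
          refine mul_le_mul_of_nonneg_left ?_ (abs_nonneg c)
          rw [abs_le]
          constructor <;>
            linarith [neg_abs_le (Real.log (b - 1)), le_abs_self (Real.log (1 / 2)),
              abs_nonneg (Real.log (b - 1)), abs_nonneg (Real.log (1 / 2))]

/-- **Chebotarev, consumer form**: an upper bound on the primes bounds the set. -/
theorem card_le_of_upperDens (r : GQ →* G) (hr : Function.Surjective r)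
    (hfin : GaloisFactorsThroughFiniteLevel r) (C : Set G)
    (hC : ∀ g, ∀ x ∈ C, g * x * g⁻¹ ∈ C) (hCinv : ∀ x ∈ C, x⁻¹ ∈ C) (S : Finset ℕ) (δ D : ℝ)
    (h : ∀ s : ℝ, 1 < s → s ≤ 3 / 2 → ∀ T : Finset ℕ,
      (∀ p ∈ T, p.Prime ∧ p ∉ S ∧ ∃ A : ValuationSubring Qb, A.LiesOverPrime p ∧
        ∃ τ : GQ, A.IsFrobeniusAt τ p ∧ r τ ∈ C) →
      ∑ p ∈ T, (p : ℝ) ^ (-s) ≤ δ * -Real.log (s - 1) + D) :
    (Nat.card C : ℝ) ≤ δ * Nat.card G := by
  by_contra hlt
  rw [not_le] at hlt
  have hG : (0 : ℝ) < Nat.card G := Nat.cast_pos.mpr Nat.card_pos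
  obtain ⟨c, hc1, hc2⟩ := exists_between ((lt_div_iff₀ hG).mpr hlt)
  obtain ⟨D', hD'⟩ := exists_finset_frobenius_sum_ge r hr hfin C hC hCinv S c
    ((lt_div_iff₀ hG).mp hc2)
  have hev : ∀ᶠ s in 𝓝[>] (1 : ℝ), 1 < s ∧ s ≤ 3 / 2 ∧ (D + D') / (c - δ) < -Real.log (s - 1) := by
    filter_upwards [self_mem_nhdsWithin,
      nhdsWithin_le_nhds (Iic_mem_nhds (by norm_num : (1 : ℝ) < 3 / 2)),
      FermatAgent.CFT.tendsto_neg_log_sub_one.eventually_gt_atTop ((D + D') / (c - δ))] with s a b d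
    exact ⟨a, b, d⟩
  obtain ⟨s, hs, hs', hbig⟩ := hev.exists
  obtain ⟨T, hT, hsum⟩ := hD' s hs hs'
  have := h s hs hs' T hT
  rw [div_lt_iff₀ (by linarith)] at hbig
  linarith

end FermatAgent.DeligneSerre
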