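import Fermat.Prelude.Def_GaloisRep_Residual
import Mathlib

/-!
# Coefficient fields, mod `ℓ` representations and attached representations

The notions joining the algebraic and the analytic half of the Deligne–Serre theorem, for a
coefficient sequence `a` with nebentypus `ε` modulo `N`.

* `CoeffField a ε`: the `a p` are algebraic integers in a number field, with the mean square
  bound for every conjugate.
* `HasModLReps a ε`: mod `ℓ` representations for all large primes `ℓ`.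
* `HasAttachedRep a ε ρ`: `ρ` is a complex representation attached to `a` and `ε`.
-/

set_option autoImplicit false

noncomputable section

namespace FermatAgent.DeligneSerre

local notation "Qb" => AlgebraicClosure ℚ
local notation "GQ" => AlgebraicClosure ℚ ≃ₐ[ℚ] AlgebraicClosure ℚ

variable {N : ℕ}

/-- Algebraic integrality, finiteness of the field of coefficients, and the bound
`∑ ‖τ (a p)‖² p ^ (-s) ≤ C log (1 / (s - 1)) + C` for every automorphism `τ` of `ℂ`. -/
structure CoeffField (a : ℕ → ℂ) (ε : DirichletCharacter ℂ N) : Prop where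
  isIntegral : ∀ p : ℕ, p.Prime → ¬ p ∣ N → IsIntegral ℤ (a p)
  finiteDimensional : ∃ E : IntermediateField ℚ ℂ, FiniteDimensional ℚ E ∧
    ∀ p : ℕ, p.Prime → ¬ p ∣ N → a p ∈ E ∧ ε (p : ZMod N) ∈ E
  conj_bound : ∀ τ : ℂ ≃+* ℂ, ∃ C : ℝ, ∀ s : ℝ, 1 < s → s ≤ 3 / 2 → ∀ T : Finset ℕ,
    (∀ p ∈ T, p.Prime ∧ ¬ p ∣ N) →
      ∑ p ∈ T, ‖τ (a p)‖ ^ 2 * (p : ℝ) ^ (-s) ≤ C * -Real.log (s - 1) + C

/-- For all large primes `ℓ` and every `φ : ℤ̄ → k` into an algebraically closed field of characteristic `ℓ`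
there is a representation unramified at `p ∤ N ℓ` with trace `φ (a p)` and determinant
`φ (ε p)` at Frobenius. -/
def HasModLReps (a : ℕ → ℂ) (ε : DirichletCharacter ℂ N) : Prop :=
  ∃ ℓ₀ : ℕ, ∀ ℓ : ℕ, ℓ.Prime → ℓ₀ ≤ ℓ → ∀ (k : Type) [Field k] [IsAlgClosed k] [CharP k ℓ]
    (φ : integralClosure ℤ ℂ →+* k),
    ∃ ρ : GQ →* GL (Fin 2) k, GaloisFactorsThroughFiniteLevel ρ ∧
      ∀ p : ℕ, p.Prime → ¬ p ∣ N * ℓ → ∀ A : ValuationSubring Qb, A.LiesOverPrime p →
        (∀ σ ∈ A.inertiaSubgroupIn ℚ, ρ σ = 1) ∧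
        ∀ σ : GQ, A.IsFrobeniusAt σ p →
          (∃ x : integralClosure ℤ ℂ, (x : ℂ) = a p ∧
            Matrix.trace ((ρ σ : GL (Fin 2) k) : Matrix (Fin 2) (Fin 2) k) = φ x) ∧
          ∃ y : integralClosure ℤ ℂ, (y : ℂ) = ε (p : ZMod N) ∧
            Matrix.det ((ρ σ : GL (Fin 2) k) : Matrix (Fin 2) (Fin 2) k) = φ y

/-- The conclusion: a complex representation with finite image attached to `a` and `ε`. -/
def HasAttachedRep (a : ℕ → ℂ) (ε : DirichletCharacter ℂ N) (ρ : GQ →* GL (Fin 2) ℂ) : Prop :=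
  GaloisFactorsThroughFiniteLevel ρ ∧
    ∀ p : ℕ, p.Prime → ¬ p ∣ N → ∀ A : ValuationSubring Qb, A.LiesOverPrime p →
      (∀ σ ∈ A.inertiaSubgroupIn ℚ, ρ σ = 1) ∧
      ∀ σ : GQ, A.IsFrobeniusAt σ p →
        ((ρ σ : GL (Fin 2) ℂ) : Matrix (Fin 2) (Fin 2) ℂ).trace = a p ∧
        ((ρ σ : GL (Fin 2) ℂ) : Matrix (Fin 2) (Fin 2) ℂ).det = ε (p : ZMod N)

/-- The values of a character are algebraic integers. -/
theorem isIntegral_char [NeZero N] (ε : DirichletCharacter ℂ N) (x : ZMod N) : IsIntegral ℤ (ε x) := by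
  by_cases hx : IsUnit x
  · obtain ⟨u, rfl⟩ := hx
    refine IsIntegral.of_pow (orderOf_pos u) ?_
    rw [← map_pow, ← Units.val_pow_eq_pow_val, pow_orderOf_eq_one, Units.val_one, map_one]
    exact isIntegral_one
  · rw [MulChar.map_nonunit ε hx]
    exact isIntegral_zero

end FermatAgent.DeligneSerre
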