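import Fermat.Agent.DeligneSerre.ImageModRep

/-!
# The complex representation with finite image

For large `ℓ` the mod `ℓ` representations are representations of one finite group, with traces
and determinants reductions of fixed algebraic integers. The equations of such a representation
are therefore solvable in `ℂ`.
-/

set_option autoImplicit false
set_option maxHeartbeats 800000

noncomputable section

namespace FermatAgent.DeligneSerre

open Matrix

local notation "OC" => integralClosure ℤ ℂ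
local notation "Qb" => AlgebraicClosure ℚ
local notation "GQ" => AlgebraicClosure ℚ ≃ₐ[ℚ] AlgebraicClosure ℚ
local notation "Mat" => Matrix (Fin 2) (Fin 2)

section Variety

variable {G : Type} [Monoid G]

/-- The matrix of unknowns attached to an element. -/
def unknownMat (g : G) : Mat (MvPolynomial (G × Fin 2 × Fin 2) OC) :=
  Matrix.of fun i j => MvPolynomial.X (g, i, j)

/-- The equations of a representation with given traces and determinants. -/
def repEquations (t d : G → OC) : Set (MvPolynomial (G × Fin 2 × Fin 2) OC) :=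
  {P | (∃ g h : G, ∃ i j, P = (unknownMat (g * h) - unknownMat g * unknownMat h) i j) ∨
    (∃ i j, P = (unknownMat (1 : G) - 1) i j) ∨
    (∃ g, P = (unknownMat g).trace - MvPolynomial.C (t g)) ∨
    ∃ g, P = (unknownMat g).det - MvPolynomial.C (d g)}

variable {R : Type*} [CommRing R] (φ : OC →+* R)

omit [Monoid G] in
theorem mapMatrix_unknownMat (x : G × Fin 2 × Fin 2 → R) (g : G) :
    (MvPolynomial.eval₂Hom φ x).mapMatrix (unknownMat g) = Matrix.of fun i j => x (g, i, j) := by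
  ext i j
  simp [unknownMat]

/-- Solutions of the equations are representations. -/
theorem eval_repEquations_iff {t d : G → OC} (x : G × Fin 2 × Fin 2 → R) :
    (∀ P ∈ repEquations t d, MvPolynomial.eval₂ φ x P = 0) ↔
      ∃ r : G →* Mat R, (∀ g i j, r g i j = x (g, i, j)) ∧
        ∀ g, (r g).trace = φ (t g) ∧ (r g).det = φ (d g) := by
  let e := MvPolynomial.eval₂Hom φ x
  let X : G → Mat R := fun g => Matrix.of fun i j => x (g, i, j)
  have hX : ∀ g, e.mapMatrix (unknownMat g) = X g := mapMatrix_unknownMat φ x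
  have hmul : ∀ g h i j, e ((unknownMat (g * h) - unknownMat g * unknownMat h) i j) =
      (X (g * h) - X g * X h) i j := fun g h i j => by
    rw [← hX, ← hX, ← hX, ← map_mul, ← map_sub]
    rfl
  have hone : ∀ i j, e ((unknownMat (1 : G) - 1) i j) = (X 1 - 1) i j := fun i j => by
    rw [← hX, ← map_one e.mapMatrix, ← map_sub]
    rfl
  have htr : ∀ g, e ((unknownMat g).trace - MvPolynomial.C (t g)) = (X g).trace - φ (t g) :=
    fun g => by
      rw [map_sub, MvPolynomial.eval₂Hom_C, AddMonoidHom.map_trace, ← hX]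
      rfl
  have hdet : ∀ g, e ((unknownMat g).det - MvPolynomial.C (d g)) = (X g).det - φ (d g) :=
    fun g => by
      rw [map_sub, MvPolynomial.eval₂Hom_C, RingHom.map_det, hX]
  constructor
  · intro h
    have h' : ∀ P ∈ repEquations t d, e P = 0 := h
    have h1 : X 1 = 1 := sub_eq_zero.mp (Matrix.ext fun i j =>
      (hone i j).symm.trans (h' _ (Or.inr (Or.inl ⟨i, j, rfl⟩))))
    have h2 : ∀ g g', X (g * g') = X g * X g' := fun g g' => sub_eq_zero.mp (Matrix.ext fun i j =>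
      (hmul g g' i j).symm.trans (h' _ (Or.inl ⟨g, g', i, j, rfl⟩)))
    exact ⟨⟨⟨X, h1⟩, h2⟩, fun g i j => rfl, fun g =>
      ⟨sub_eq_zero.mp ((htr g).symm.trans (h' _ (Or.inr (Or.inr (Or.inl ⟨g, rfl⟩))))),
        sub_eq_zero.mp ((hdet g).symm.trans (h' _ (Or.inr (Or.inr (Or.inr ⟨g, rfl⟩)))))⟩⟩
  · rintro ⟨r, hr, htd⟩ P hP
    have hrX : ∀ g, X g = r g := fun g => Matrix.ext fun i j => (hr g i j).symm
    show e P = 0
    rcases hP with ⟨g, h, i, j, rfl⟩ | ⟨i, j, rfl⟩ | ⟨g, rfl⟩ | ⟨g, rfl⟩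
    · rw [hmul, hrX, hrX, hrX, map_mul, sub_self]; rfl
    · rw [hone, hrX, map_one, sub_self]; rfl
    · rw [htr, hrX, (htd g).1, sub_self]
    · rw [hdet, hrX, (htd g).2, sub_self]

/-- **A representation over `ℂ` from representations over residue fields.** -/
theorem exists_complex_rep [Finite G] {t d : G → OC}
    (h : ∀ b : ℕ, ∃ ℓ : ℕ, b < ℓ ∧ ∃ (k : Type) (_ : Field k) (_ : CharP k ℓ) (φ : OC →+* k)
      (r : G →* Mat k), ∀ g, (r g).trace = φ (t g) ∧ (r g).det = φ (d g)) :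
    ∃ r : G →* Mat ℂ, ∀ g, (r g).trace = (t g : ℂ) ∧ (r g).det = (d g : ℂ) := by
  obtain ⟨z, hz⟩ := exists_complex_solution (repEquations t d) fun c hc => by
    obtain ⟨b, hb⟩ := exists_forall_map_ne_zero hc
    obtain ⟨ℓ, hℓ, k, _, _, φ, r, hr⟩ := h b
    exact ⟨k, inferInstance, φ, fun v => r v.1 v.2.1 v.2.2, hb ℓ hℓ k φ,
      (eval_repEquations_iff φ _).mpr ⟨r, fun g i j => rfl, hr⟩⟩
  obtain ⟨r, -, hr⟩ := (eval_repEquations_iff _ z).mp hz
  exact ⟨r, hr⟩

end Variety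

variable {N : ℕ} [NeZero N] {a : ℕ → ℂ} {ε : DirichletCharacter ℂ N}

/-- The coefficients at the good primes are bounded by `2`. -/
theorem norm_le_two (he : CoeffField a ε) (hm : HasModLReps a ε) {p : ℕ} (hp : p.Prime)
    (hpN : ¬ p ∣ N) : ‖a p‖ ≤ 2 := by
  obtain ⟨b, n, hn, hval, -, -⟩ := exists_compatible he hm
  obtain ⟨u, hu, v, hv, hsum, -⟩ := hval p hp hpN
  rw [← hsum]
  have h1 : ∀ {w : OC}, w ∈ unityRoots n → ‖(w : ℂ)‖ = 1 := fun {w} hw =>
    Complex.norm_eq_one_of_pow_eq_one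
      (by simpa using congrArg Subtype.val ((mem_unityRoots hn).mp hw)) hn.ne'
  calc ‖(u : ℂ) + (v : ℂ)‖ ≤ ‖(u : ℂ)‖ + ‖(v : ℂ)‖ := norm_add_le _ _
    _ = 2 := by rw [h1 hu, h1 hv]; norm_num

/-- **The attached representation.** -/
theorem exists_attachedRep (he : CoeffField a ε) (hm : HasModLReps a ε) :
    ∃ ρ : GQ →* GL (Fin 2) ℂ, HasAttachedRep a ε ρ := by
  classical
  obtain ⟨b, n, hn, hval, hreps, hker⟩ := exists_compatible he hm
  obtain ⟨l₀, hl₀b, hl₀⟩ := Nat.exists_infinite_primes (b + 1)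
  obtain ⟨k₀, _, _, _, φ₀, ρ₀, hρ₀, hss₀⟩ := hreps l₀ hl₀ (by omega)
  have : Finite ρ₀.range := finite_range_of_factors ρ₀ hρ₀.1
  set G := ρ₀.range
  let r₀ : GQ →* G := ρ₀.rangeRestrict
  have hr₀ : Function.Surjective r₀ := ρ₀.rangeRestrict_surjective
  have hr₀1 : ∀ σ, r₀ σ = 1 ↔ ρ₀ σ = 1 := fun σ => ⟨fun h => congrArg Subtype.val h, fun h => Subtype.ext h⟩
  have hfac : GaloisFactorsThroughFiniteLevel r₀ := by
    obtain ⟨L, hL, hLfix⟩ := hρ₀.1
    exact ⟨L, hL, fun σ hσ => (hr₀1 σ).mpr (hLfix σ hσ)⟩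
  -- every element is a power of a Frobenius
  have hfrob : ∀ g : G, ∃ p : ℕ, p.Prime ∧ ¬ p ∣ N ∧ ∃ (m : ℕ) (A : ValuationSubring Qb) (τ : GQ),
      A.LiesOverPrime p ∧ A.IsFrobeniusAt τ p ∧ r₀ (τ ^ m) = g := fun g => by
    obtain ⟨σ, rfl⟩ := hr₀ g
    obtain ⟨p, hp, hpS, A, hA, τ, hτ, m, k, hm', -⟩ :=
      FermatAgent.GalRep.exists_isFrobeniusAt_map_pow_eq r₀ hfac σ
        (S := {q | q ∣ N}) (N.divisors.finite_toSet.subset fun q hq =>
          Finset.mem_coe.mpr (Nat.mem_divisors.mpr ⟨hq, NeZero.ne N⟩))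
    exact ⟨p, hp, hpS, m, A, τ, hA, hτ, hm'⟩
  choose pg hpg hpgN mg Ag τg hAg hτg hgg using hfrob
  let x : G → OC := fun g => ⟨a (pg g), he.isIntegral _ (hpg g) (hpgN g)⟩
  let y : G → OC := fun g => charValue ε (pg g : ZMod N)
  let t : G → OC := fun g => powTr (x g) (y g) (mg g)
  let d : G → OC := fun g => y g ^ mg g
  have : Fintype G := Fintype.ofFinite G
  -- the representations of `G` in large characteristics
  have hG : ∀ c : ℕ, ∃ ℓ : ℕ, c < ℓ ∧ ℓ.Prime ∧ ∃ (k : Type) (_ : Field k) (_ : IsAlgClosed k)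
      (_ : CharP k ℓ) (φ : OC →+* k) (ρ : GQ →* GL (Fin 2) k), IsModRep a ε ℓ φ ρ ∧
      (∀ σ, ρ σ = 1 → r₀ σ = 1) ∧ ∃ r : G →* Mat k, (∀ σ, r (r₀ σ) = (ρ σ : Mat k)) ∧
        ∀ g, (r g).trace = φ (t g) ∧ (r g).det = φ (d g) := fun c => by
    obtain ⟨ℓ, hℓc, hℓ⟩ := Nat.exists_infinite_primes (c + b + N + (∑ g : G, pg g) + 1)
    obtain ⟨k, _, _, _, φ, ρ, hρ, hss⟩ := hreps ℓ hℓ (by omega)
    have hk₀ : r₀.ker ≤ ρ.ker := fun σ hσ =>
      hker l₀ ℓ hl₀ hℓ (by omega) (by omega) k₀ k φ₀ φ ρ₀ ρ hρ₀ hρ hss₀ hss σ ((hr₀1 σ).mp hσ)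
    let ψ : G →* GL (Fin 2) k := r₀.liftOfSurjective hr₀ ⟨ρ, hk₀⟩
    have hψ : ∀ σ, ψ (r₀ σ) = ρ σ := fun σ =>
      MonoidHom.liftOfRightInverse_comp_apply _ _ _ ⟨ρ, hk₀⟩ σ
    refine ⟨ℓ, by omega, hℓ, k, inferInstance, inferInstance, inferInstance, φ, ρ, hρ, fun σ h =>
      (hr₀1 σ).mpr (hker ℓ l₀ hℓ hl₀ (by omega) (by omega) k k₀ φ φ₀ ρ ρ₀ hρ hρ₀ hss hss₀ σ h),
      (Units.coeHom _).comp ψ, fun σ => congrArg Units.val (hψ σ), fun g => ?_⟩
    have hle : pg g ≤ ∑ g : G, pg g := Finset.single_le_sum (fun i _ => Nat.zero_le _) (Finset.mem_univ g)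
    have hpℓ : ¬ pg g ∣ N * ℓ := fun h => ((hpg g).dvd_mul.mp h).elim (hpgN g) fun h' => by
      have := (Nat.prime_dvd_prime_iff_eq (hpg g) hℓ).mp h'
      omega
    obtain ⟨⟨x', hx', htr⟩, y', hy', hdet⟩ := (hρ.2 _ (hpg g) hpℓ _ (hAg g)).2 _ (hτg g)
    have hg : ((ψ g : GL (Fin 2) k) : Mat k) = (ρ (τg g) : Mat k) ^ mg g := by
      conv_lhs => rw [← hgg g]
      rw [hψ, map_pow, Units.val_pow_eq_pow_val]
    show ((ψ g : GL (Fin 2) k) : Mat k).trace = _ ∧ _
    refine ⟨?_, ?_⟩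
    · rw [hg, trace_pow_eq, htr, hdet, map_powTr, show x' = x g from Subtype.ext hx',
        show y' = y g from Subtype.ext hy']
    · show ((ψ g : GL (Fin 2) k) : Mat k).det = _
      rw [hg, Matrix.det_pow, hdet, map_pow, show y' = y g from Subtype.ext hy']
  obtain ⟨r, hr⟩ := exists_complex_rep (t := t) (d := d) fun c => by
    obtain ⟨ℓ, hℓc, -, k, i₁, -, i₂, φ, -, -, -, r, -, hrg⟩ := hG c
    exact ⟨ℓ, hℓc, k, i₁, i₂, φ, r, hrg⟩
  refine ⟨r.toHomUnits.comp r₀, ?_, fun p hp hpN A hA => ?_⟩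
  · obtain ⟨L, hL, hLfix⟩ := hfac
    exact ⟨L, hL, fun σ hσ => by rw [MonoidHom.comp_apply, hLfix σ hσ, map_one]⟩
  · refine ⟨fun σ hσ => ?_, fun σ hσ => ?_⟩
    · obtain ⟨ℓ, hℓc, hℓ, k, _, _, _, φ, ρ, hρ, hk, -⟩ := hG p
      have hpℓ : ¬ p ∣ N * ℓ := fun h => (hp.dvd_mul.mp h).elim hpN fun h' => by
        have := (Nat.prime_dvd_prime_iff_eq hp hℓ).mp h'
        omega
      rw [MonoidHom.comp_apply, hk σ ((hρ.2 p hp hpℓ A hA).1 σ hσ), map_one]
    · set g := r₀ σ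
      have key : t g = ⟨a p, he.isIntegral p hp hpN⟩ ∧ d g = charValue ε (p : ZMod N) := by
        refine ⟨sub_eq_zero.mp (eq_zero_of_frequently fun c => ?_),
          sub_eq_zero.mp (eq_zero_of_frequently fun c => ?_)⟩ <;>
        · obtain ⟨ℓ, hℓc, hℓ, k, i₁, _, i₂, φ, ρ, hρ, -, rℓ, hrρ, hrg⟩ := hG (c + p)
          refine ⟨ℓ, by omega, k, i₁, i₂, φ, ?_⟩
          have hpℓ : ¬ p ∣ N * ℓ := fun h => (hp.dvd_mul.mp h).elim hpN fun h' => by
            have := (Nat.prime_dvd_prime_iff_eq hp hℓ).mp h'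
            omega
          obtain ⟨⟨x', hx', htr⟩, y', hy', hdet⟩ := (hρ.2 p hp hpℓ A hA).2 σ hσ
          first
          | rw [map_sub, sub_eq_zero, ← (hrg g).1, hrρ, htr,
              show x' = ⟨a p, he.isIntegral p hp hpN⟩ from Subtype.ext hx']
          | rw [map_sub, sub_eq_zero, ← (hrg g).2, hrρ, hdet,
              show y' = charValue ε (p : ZMod N) from Subtype.ext hy']
      refine ⟨?_, ?_⟩
      · exact (hr g).1.trans (congrArg Subtype.val key.1)
      · exact (hr g).2.trans (congrArg Subtype.val key.2)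

end FermatAgent.DeligneSerre
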