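import Fermat.Agent.GalRep.Density.Burnside
import Mathlib

/-!
# Finite subgroups of `GL₂` with few traces

If most elements of a finite group of `2 × 2` matrices spanning the matrix algebra have their
trace in a set `Y`, four translates still leave most elements, and an element is determined by
four such traces: the group has at most `2 |Y| ^ 4` elements. In the diagonal case a pair of
eigenvalues is determined by trace and determinant up to order. A reducible representation is
replaced by the pair of its characters.
-/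

set_option autoImplicit false

noncomputable section

namespace FermatAgent.DeligneSerre

open Matrix

variable {k : Type*} [Field k]

/-- A matrix is determined by the traces of its products with a spanning set. -/
theorem eq_of_forall_trace_mul_eq {s : Set (Matrix (Fin 2) (Fin 2) k)}
    (hs : Submodule.span k s = ⊤) {X Y : Matrix (Fin 2) (Fin 2) k}
    (h : ∀ B ∈ s, (B * X).trace = (B * Y).trace) : X = Y := by
  have hall : ∀ B, (B * X).trace = (B * Y).trace := fun B => by
    have hB : B ∈ Submodule.span k s := hs ▸ Submodule.mem_top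
    induction hB using Submodule.span_induction with
    | mem x hx => exact h x hx
    | zero => simp
    | add x y _ _ hx hy => simp [add_mul, hx, hy]
    | smul c x _ hx => simp [hx]
  ext i j
  have hij := hall (Matrix.single j i 1)
  simpa [Matrix.trace_single_mul] using hij

/-- **The bound, spanning case.** -/
theorem card_le_of_span {G : Type*} [Group G] [Finite G]
    (r : G →* Matrix (Fin 2) (Fin 2) k) (hr : Function.Injective r)
    (hspan : Submodule.span k (Set.range r) = ⊤) (Y : Finset k) {η : ℝ}
    (hbad : (Nat.card {g : G | (r g).trace ∉ Y} : ℝ) ≤ η * Nat.card G) :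
    (1 - 4 * η) * (Nat.card G : ℝ) ≤ (Y.card : ℝ) ^ 4 := by
  classical
  have := Fintype.ofFinite G
  obtain ⟨b, hbr, hbspan, hbli⟩ := exists_linearIndependent k (Set.range r)
  rw [hspan] at hbspan
  let B : Module.Basis b k (Matrix (Fin 2) (Fin 2) k) :=
    Module.Basis.mk hbli (by rw [Subtype.range_coe, hbspan])
  have : Fintype b := FiniteDimensional.fintypeBasisIndex B
  have hb4 : Fintype.card b = 4 := by
    rw [← Module.finrank_eq_card_basis B, Module.finrank_matrix]
    simp
  choose g hg using fun x : b => hbr x.2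
  set bad : Finset G := {x | (r x).trace ∉ Y}
  set good : Finset G := {x | ∀ i : b, (r (g i * x)).trace ∈ Y}
  have hbadcard : (bad.card : ℝ) ≤ η * Nat.card G := by
    refine le_trans (le_of_eq ?_) hbad
    rw [Nat.card_eq_fintype_card, Fintype.card_subtype]
    rfl
  have hcover : (Finset.univ : Finset G) ⊆
      good ∪ Finset.univ.biUnion (fun i : b => bad.image fun x => (g i)⁻¹ * x) := fun x _ => by
    by_cases hx : x ∈ good
    · exact Finset.mem_union_left _ hx
    · simp only [good, Finset.mem_filter, Finset.mem_univ, true_and, not_forall] at hx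
      obtain ⟨i, hi⟩ := hx
      exact Finset.mem_union_right _ (Finset.mem_biUnion.mpr ⟨i, Finset.mem_univ _,
        Finset.mem_image.mpr ⟨g i * x, by simpa [bad] using hi, inv_mul_cancel_left _ _⟩⟩)
  have h1 : Nat.card G ≤ good.card + 4 * bad.card := by
    rw [Nat.card_eq_fintype_card, ← Finset.card_univ]
    refine (Finset.card_le_card hcover).trans ((Finset.card_union_le _ _).trans ?_)
    refine Nat.add_le_add_left ?_ _
    refine (Finset.card_biUnion_le).trans ((Finset.sum_le_card_nsmul _ _ bad.card
      fun i _ => Finset.card_image_le).trans ?_)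
    simp [hb4]
  have h2 : good.card ≤ Y.card ^ 4 := by
    have hinj : Set.InjOn (fun x (i : b) => (r (g i * x)).trace) good := fun x _ y _ hxy => by
      refine hr (eq_of_forall_trace_mul_eq hbspan fun M hM => ?_)
      have hi := congrFun hxy ⟨M, hM⟩
      dsimp only at hi
      rwa [map_mul, map_mul, hg] at hi
    refine (Finset.card_le_card_of_injOn _ ?_ hinj).trans_eq (b := (Fintype.piFinset fun _ : b => Y).card) ?_
    · intro x hx
      exact Fintype.mem_piFinset.mpr (Finset.mem_filter.mp hx).2
    · rw [Fintype.card_piFinset, Finset.prod_const, Finset.card_univ, hb4]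
  have h1' : (Nat.card G : ℝ) ≤ good.card + 4 * bad.card := by exact_mod_cast h1
  have h2' : (good.card : ℝ) ≤ (Y.card : ℝ) ^ 4 := by exact_mod_cast h2
  nlinarith

/-- **The bound, diagonal case.** -/
theorem card_le_of_pair {G : Type*} [Group G] [Finite G] (χ : G →* k × k)
    (hχ : Function.Injective χ) (Y Z : Finset k) {η : ℝ}
    (hbad : (Nat.card {g : G | ¬ ((χ g).1 + (χ g).2 ∈ Y ∧ (χ g).1 * (χ g).2 ∈ Z)} : ℝ) ≤
      η * Nat.card G) :
    (1 - η) * (Nat.card G : ℝ) ≤ 2 * (Y.card * Z.card : ℝ) := by
  classical
  have := Fintype.ofFinite G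
  set f : G → k × k := fun g => ((χ g).1 + (χ g).2, (χ g).1 * (χ g).2)
  set good : Finset G := {g | (χ g).1 + (χ g).2 ∈ Y ∧ (χ g).1 * (χ g).2 ∈ Z}
  have h1 : (Nat.card G : ℝ) ≤ good.card + η * Nat.card G := by
    refine le_trans (le_of_eq ?_) (add_le_add le_rfl hbad)
    rw [Nat.card_eq_fintype_card, Nat.card_eq_fintype_card, ← Nat.cast_add, Fintype.card_subtype]
    congr 1
    rw [← Finset.card_univ]
    exact (Finset.card_filter_add_card_filter_not _).symm
  have h2 : good.card ≤ 2 * (good.image f).card := by
    refine Finset.card_le_mul_card_image _ 2 fun y _ => ?_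
    by_contra! hlt
    obtain ⟨a, ha, b, hb, c, hc, hab, hac, hbc⟩ := Finset.two_lt_card.mp hlt
    simp only [Finset.mem_filter, f] at ha hb hc
    have key : ∀ {x z : G}, (((χ x).1 + (χ x).2, (χ x).1 * (χ x).2) : k × k) =
        ((χ z).1 + (χ z).2, (χ z).1 * (χ z).2) → x ≠ z → χ z = (χ x).swap := by
      intro x z e hne
      obtain ⟨e₁, e₂⟩ := Prod.ext_iff.mp e
      dsimp only at e₁ e₂
      have h : ((χ z).1 - (χ x).1) * ((χ z).1 - (χ x).2) = 0 := by
        linear_combination (-(χ z).1) * e₁ + e₂
      rcases mul_eq_zero.mp h with h | h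
      · refine absurd (hχ (Prod.ext (sub_eq_zero.mp h).symm ?_)) hne
        linear_combination e₁ + h
      · refine Prod.ext (sub_eq_zero.mp h) ?_
        show (χ z).2 = (χ x).1
        linear_combination (-1 : k) * e₁ - h
    exact hbc (hχ ((key (ha.2.trans hb.2.symm) hab).trans (key (ha.2.trans hc.2.symm) hac).symm))
  have h3 : (good.image f).card ≤ Y.card * Z.card := by
    rw [← Finset.card_product]
    refine Finset.card_le_card fun y hy => ?_
    obtain ⟨g, hg, rfl⟩ := Finset.mem_image.mp hy
    exact Finset.mem_product.mpr (Finset.mem_filter.mp hg).2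
  have h2' : (good.card : ℝ) ≤ 2 * (Y.card * Z.card : ℝ) := by
    exact_mod_cast h2.trans (Nat.mul_le_mul_left 2 h3)
  linarith

/-- Diagonal values. -/
def IsDiagonal {G : Type*} (r : G → Matrix (Fin 2) (Fin 2) k) : Prop :=
  ∀ g, r g 0 1 = 0 ∧ r g 1 0 = 0

/-- **Semisimplification.** The same traces and determinants, a smaller image, and the values
span or are diagonal. -/
theorem exists_semisimple [IsAlgClosed k] {G : Type*} [Group G] (ρ : G →* GL (Fin 2) k) :
    ∃ ρ' : G →* GL (Fin 2) k, (∀ g, ρ g = 1 → ρ' g = 1) ∧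
      (∀ g, (ρ' g : Matrix (Fin 2) (Fin 2) k).trace = (ρ g : Matrix (Fin 2) (Fin 2) k).trace ∧
        (ρ' g : Matrix (Fin 2) (Fin 2) k).det = (ρ g : Matrix (Fin 2) (Fin 2) k).det) ∧
      (Submodule.span k (Set.range fun g => (ρ' g : Matrix (Fin 2) (Fin 2) k)) = ⊤ ∨
        IsDiagonal fun g => (ρ' g : Matrix (Fin 2) (Fin 2) k)) := by
  classical
  let e : Matrix (Fin 2) (Fin 2) k ≃ₐ[k] Module.End k (Fin 2 → k) := Matrix.toLinAlgEquiv'
  let r : G →* Module.End k (Fin 2 → k) :=
    e.toAlgHom.toMonoidHom.comp ((Units.coeHom _).comp ρ)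
  by_cases hirr : ∀ W : Submodule k (Fin 2 → k), (∀ g : G, ∀ x ∈ W, r g x ∈ W) → W = ⊥ ∨ W = ⊤
  · refine ⟨ρ, fun g h => h, fun g => ⟨rfl, rfl⟩, Or.inl ?_⟩
    refine Submodule.map_injective_of_injective (f := e.toLinearMap) e.injective ?_
    rw [Submodule.map_span, ← Set.range_comp, Submodule.map_top]
    refine Eq.trans ?_ (LinearMap.range_eq_top.mpr e.surjective).symm
    exact FermatAgent.GalRep.burnside_span_range_eq_top r hirr
  · push Not at hirr
    obtain ⟨W, hW, hW0, hW1⟩ := hirr
    have hdim : Module.finrank k W = 1 := by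
      have h1 := Submodule.finrank_lt hW1
      have h2 : Module.finrank k W ≠ 0 := fun h => hW0 (Submodule.finrank_eq_zero.mp h)
      rw [Module.finrank_fin_fun] at h1
      omega
    obtain ⟨⟨v, hv⟩, hv0, hspan⟩ := finrank_eq_one_iff'.mp hdim
    have hv0' : v ≠ 0 := fun h => hv0 (Subtype.ext h)
    have hc : ∀ g, ∃ c : k, r g v = c • v := fun g => by
      obtain ⟨c, hc⟩ := hspan ⟨r g v, hW g v hv⟩
      exact ⟨c, (congrArg Subtype.val hc).symm⟩
    choose c hc using hc
    have huniq : ∀ {g d}, r g v = d • v → c g = d := fun h =>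
      smul_left_injective k hv0' ((hc _).symm.trans h)
    have h1 : c 1 = 1 := huniq (by rw [map_one, one_smul]; rfl)
    have hmul : ∀ g h, c (g * h) = c g * c h := fun g h => huniq (by
      rw [map_mul, Module.End.mul_apply, hc h, map_smul, hc g, smul_smul, mul_comm])
    have hne : ∀ g, c g ≠ 0 := fun g h => by
      have := hmul g g⁻¹
      rw [mul_inv_cancel, h1, h, zero_mul] at this
      exact one_ne_zero this
    have hroot : ∀ g, c g * c g - (ρ g : Matrix (Fin 2) (Fin 2) k).trace * c g +
        (ρ g : Matrix (Fin 2) (Fin 2) k).det = 0 := fun g => by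
      set M : Matrix (Fin 2) (Fin 2) k := ↑(ρ g)
      have hMv : M *ᵥ v = c g • v := hc g
      have h0 : (M - c g • 1) *ᵥ v = 0 := by
        rw [Matrix.sub_mulVec, Matrix.smul_mulVec, Matrix.one_mulVec, hMv, sub_self]
      have hdet := Matrix.exists_mulVec_eq_zero_iff.mp ⟨v, hv0', h0⟩
      rw [← hdet, Matrix.det_fin_two, Matrix.det_fin_two, Matrix.trace_fin_two]
      simp [Matrix.sub_apply, Matrix.smul_apply]
      ring
    let d : G → Matrix (Fin 2) (Fin 2) k := fun g =>
      Matrix.diagonal ![c g, (ρ g : Matrix (Fin 2) (Fin 2) k).det / c g]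
    have hd1 : d 1 = 1 := by
      simp only [d, h1, map_one, Units.val_one, Matrix.det_one, div_one]
      rw [← Matrix.diagonal_one]
      congr 1
      ext i; fin_cases i <;> simp
    have hdmul : ∀ g h, d (g * h) = d g * d h := fun g h => by
      simp only [d, Matrix.diagonal_mul_diagonal, hmul, map_mul, Units.val_mul, Matrix.det_mul]
      congr 1
      ext i; fin_cases i
      · simp
      · simp [div_mul_div_comm]
    let dHom : G →* Matrix (Fin 2) (Fin 2) k := ⟨⟨d, hd1⟩, hdmul⟩
    refine ⟨dHom.toHomUnits, fun g hg => Units.ext ?_, fun g => ?_, Or.inr fun g => ?_⟩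
    · show d g = 1
      have hcg : c g = 1 := huniq (by
        show (ρ g : Matrix (Fin 2) (Fin 2) k) *ᵥ v = _
        rw [hg, Units.val_one, Matrix.one_mulVec, one_smul])
      simp only [d, hcg, hg, Units.val_one, Matrix.det_one, div_one]
      rw [← Matrix.diagonal_one]
      congr 1
      ext i; fin_cases i <;> simp
    · show (d g).trace = _ ∧ (d g).det = _
      have hne' := hne g
      refine ⟨?_, ?_⟩
      · simp only [d, Matrix.trace_diagonal, Fin.sum_univ_two, Matrix.cons_val_zero,
          Matrix.cons_val_one]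
        field_simp
        linear_combination hroot g
      · simp only [d, Matrix.det_diagonal, Fin.prod_univ_two, Matrix.cons_val_zero,
          Matrix.cons_val_one]
        field_simp
    · show d g 0 1 = 0 ∧ d g 1 0 = 0
      simp [d]

/-- A matrix of finite order prime to the characteristic with trace `2` and determinant `1` is
the identity. -/
theorem eq_one_of_trace_eq_two {M : Matrix (Fin 2) (Fin 2) k} (ht : M.trace = 2) (hd : M.det = 1)
    {n : ℕ} (hn : (n : k) ≠ 0) (hMn : M ^ n = 1) : M = 1 := by
  have hsq : (M - 1) * (M - 1) = 0 := by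
    rw [Matrix.trace_fin_two] at ht
    rw [Matrix.det_fin_two] at hd
    ext i j
    fin_cases i <;> fin_cases j <;> simp [Matrix.mul_apply, Fin.sum_univ_two]
    · linear_combination (M 0 0) * ht - hd
    · linear_combination (M 0 1) * ht
    · linear_combination (M 1 0) * ht
    · linear_combination (M 1 1) * ht - hd
  have hpow : ∀ m : ℕ, M ^ m = 1 + (m : k) • (M - 1) := fun m => by
    induction m with
    | zero => simp
    | succ m ih =>
      rw [pow_succ, ih, Nat.cast_succ, add_smul, one_smul, add_mul, one_mul, smul_mul_assoc,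
        show (M - 1) * M = (M - 1) + (M - 1) * (M - 1) by noncomm_ring, hsq, add_zero]
      abel
  rw [hpow n, add_eq_left] at hMn
  exact sub_eq_zero.mp ((smul_eq_zero.mp hMn).resolve_left hn)

end FermatAgent.DeligneSerre
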