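import Mathlib

/-!
# From residue fields back to `ℂ`

A non zero algebraic integer dies in characteristic `ℓ` for finitely many `ℓ` only; eigenvalues
of a matrix of order dividing `n` prime to the characteristic are reductions of roots of unity;
a system of polynomial equations with algebraic integer coefficients which is solvable in
fields where any given non zero constant survives is solvable in `ℂ`.
-/

set_option autoImplicit false

noncomputable section

namespace FermatAgent.DeligneSerre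

local notation "OC" => integralClosure ℤ ℂ

section Roots

open Polynomial

/-- A non zero algebraic integer dies in finitely many residue characteristics only. -/
theorem exists_forall_map_ne_zero {c : OC} (hc : c ≠ 0) :
    ∃ b : ℕ, ∀ ℓ : ℕ, b < ℓ → ∀ (k : Type) [Field k] [CharP k ℓ] (φ : OC →+* k), φ c ≠ 0 := by
  have hc' : (c : ℂ) ≠ 0 := fun h => hc (Subtype.ext h)
  obtain ⟨q, hq, hroot⟩ : IsIntegral ℤ (c : ℂ) := c.2
  -- remove the powers of `X` from an equation of `c`
  obtain ⟨g, hgq, hg0⟩ := Polynomial.exists_eq_pow_rootMultiplicity_mul_and_not_dvd q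
    hq.ne_zero 0
  rw [map_zero, sub_zero] at hgq hg0
  rw [X_dvd_iff] at hg0
  have hgc : g.eval₂ (Int.castRingHom OC) c = 0 := by
    apply Subtype.val_injective
    have h1 : g.eval₂ (algebraMap ℤ ℂ) (c : ℂ) = 0 := by
      rw [hgq, eval₂_mul, eval₂_X_pow] at hroot
      exact (mul_eq_zero.mp hroot).resolve_left (pow_ne_zero _ hc')
    show (integralClosure ℤ ℂ).val.toRingHom _ = (0 : ℂ)
    rw [hom_eval₂]
    exact (congrArg (fun f => g.eval₂ f (c : ℂ)) (Subsingleton.elim _ (algebraMap ℤ ℂ))).trans h1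
  refine ⟨(g.coeff 0).natAbs, fun ℓ hℓ k _ _ φ hφ => ?_⟩
  have h2 := congrArg φ hgc
  rw [hom_eval₂, map_zero, hφ, Subsingleton.elim (φ.comp (Int.castRingHom OC)) (Int.castRingHom k),
    eval₂_at_zero, eq_intCast, CharP.intCast_eq_zero_iff k ℓ, Int.natCast_dvd] at h2
  have := Nat.le_of_dvd (Int.natAbs_pos.mpr hg0) h2
  omega

/-- An algebraic integer killed in arbitrarily large residue characteristics is zero. -/
theorem eq_zero_of_frequently {c : OC}
    (h : ∀ b : ℕ, ∃ ℓ : ℕ, b < ℓ ∧ ∃ (k : Type) (_ : Field k) (_ : CharP k ℓ) (φ : OC →+* k),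
      φ c = 0) : c = 0 := by
  by_contra hc
  obtain ⟨b, hb⟩ := exists_forall_map_ne_zero hc
  obtain ⟨ℓ, hℓ, k, i₁, i₂, φ, hφ⟩ := h b
  exact hb ℓ hℓ k φ hφ

/-- For a finite set of algebraic integers, one bound serves all. -/
theorem exists_forall_map_ne_zero_finset (s : Finset OC) :
    ∃ b : ℕ, ∀ ℓ : ℕ, b < ℓ → ∀ (k : Type) [Field k] [CharP k ℓ] (φ : OC →+* k),
      ∀ c ∈ s, c ≠ 0 → φ c ≠ 0 := by
  classical
  induction s using Finset.induction_on with
  | empty => exact ⟨0, fun ℓ _ k _ _ φ c hc => absurd hc (Finset.notMem_empty c)⟩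
  | insert x s _ ih =>
    obtain ⟨b, hb⟩ := ih
    by_cases hx : x = 0
    · refine ⟨b, fun ℓ hℓ k _ _ φ c hc hc0 => ?_⟩
      rcases Finset.mem_insert.mp hc with rfl | hc
      · exact absurd hx hc0
      · exact hb ℓ hℓ k φ c hc hc0
    · obtain ⟨b', hb'⟩ := exists_forall_map_ne_zero hx
      refine ⟨b + b', fun ℓ hℓ k _ _ φ c hc hc0 => ?_⟩
      rcases Finset.mem_insert.mp hc with rfl | hc
      · exact hb' ℓ (by omega) k φ
      · exact hb ℓ (by omega) k φ c hc hc0

/-- The roots of unity of order dividing `n`. -/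
def unityRoots (n : ℕ) : Finset OC := nthRootsFinset n (1 : OC)

theorem mem_unityRoots {n : ℕ} (hn : 0 < n) {ζ : OC} : ζ ∈ unityRoots n ↔ ζ ^ n = 1 :=
  mem_nthRootsFinset hn _

/-- Roots of unity lift. -/
theorem exists_unityRoot_map_eq {n : ℕ} (hn : 0 < n) {k : Type*} [Field k] (φ : OC →+* k) {α : k}
    (hα : α ^ n = 1) : ∃ ζ ∈ unityRoots n, φ ζ = α := by
  have hμ := Complex.isPrimitiveRoot_exp n hn.ne'
  set μ : OC := ⟨_, (hμ.isIntegral hn).tower_top⟩
  have hμ' : IsPrimitiveRoot μ n := IsPrimitiveRoot.of_map_of_injective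
    (f := (integralClosure ℤ ℂ).val) hμ Subtype.val_injective
  have h := congrArg (Polynomial.eval₂ φ α) (X_pow_sub_one_eq_prod hn hμ')
  rw [eval₂_sub, eval₂_X_pow, eval₂_one, hα, sub_self, eval₂_finsetProd, eq_comm,
    Finset.prod_eq_zero_iff] at h
  obtain ⟨ζ, hζ, hζ0⟩ := h
  rw [eval₂_sub, eval₂_X, eval₂_C, sub_eq_zero] at hζ0
  exact ⟨ζ, hζ, hζ0.symm⟩

/-- **Eigenvalues of a matrix of finite order are reductions of roots of unity.** -/
theorem exists_unityRoots_trace_det {k : Type*} [Field k] [IsAlgClosed k] (φ : OC →+* k)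
    {M : Matrix (Fin 2) (Fin 2) k} {n : ℕ} (hn : 0 < n) (hM : M ^ n = 1) :
    ∃ ζ ∈ unityRoots n, ∃ ζ' ∈ unityRoots n,
      M.trace = φ (ζ + ζ') ∧ M.det = φ (ζ * ζ') := by
  obtain ⟨α, hα⟩ := IsAlgClosed.exists_root M.charpoly
    (by rw [M.charpoly_degree_eq_dim]; simp)
  have hroot : α ^ 2 - M.trace * α + M.det = 0 := by
    rw [IsRoot, Matrix.charpoly_fin_two] at hα
    simpa using hα
  have key : ∀ x : k, x ^ 2 - M.trace * x + M.det = 0 → x ^ n = 1 := fun x hx => by
    have h0 : (M - x • (1 : Matrix (Fin 2) (Fin 2) k)).det = 0 := by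
      rw [← hx, Matrix.trace_fin_two, Matrix.det_fin_two, Matrix.det_fin_two]
      simp [Matrix.sub_apply, Matrix.smul_apply]
      ring
    obtain ⟨v, hv, hMv⟩ := Matrix.exists_mulVec_eq_zero_iff.mpr h0
    rw [Matrix.sub_mulVec, Matrix.smul_mulVec, Matrix.one_mulVec, sub_eq_zero] at hMv
    have hpow : ∀ m : ℕ, Matrix.mulVec (M ^ m) v = x ^ m • v := fun m => by
      induction m with
      | zero => simp
      | succ m ih =>
        rw [pow_succ M, ← Matrix.mulVec_mulVec, hMv, Matrix.mulVec_smul, ih, smul_smul, pow_succ,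
          mul_comm]
    have h1 := hpow n
    rw [hM, Matrix.one_mulVec] at h1
    exact smul_left_injective k hv (h1.symm.trans (one_smul k v).symm)
  have hroot' : (M.trace - α) ^ 2 - M.trace * (M.trace - α) + M.det = 0 := by
    linear_combination hroot
  obtain ⟨ζ, hζ, hζα⟩ := exists_unityRoot_map_eq hn φ (key α hroot)
  obtain ⟨ζ', hζ', hζα'⟩ := exists_unityRoot_map_eq hn φ (key _ hroot')
  refine ⟨ζ, hζ, ζ', hζ', ?_, ?_⟩
  · rw [map_add, hζα, hζα']; ring
  · rw [map_mul, hζα, hζα']; linear_combination hroot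

/-- Two complex numbers of absolute value one with sum two are one. -/
theorem eq_one_of_add_eq_two {n : ℕ} (hn : n ≠ 0) {u v : ℂ} (hu : u ^ n = 1) (hv : v ^ n = 1)
    (h : u + v = 2) : u = 1 ∧ v = 1 := by
  have hu1 := Complex.norm_eq_one_of_pow_eq_one hu hn
  have hv1 := Complex.norm_eq_one_of_pow_eq_one hv hn
  have hre : u.re + v.re = 2 := by simpa using congrArg Complex.re h
  have hu2 : u.re ≤ 1 := hu1 ▸ Complex.re_le_norm u
  have hv2 : v.re ≤ 1 := hv1 ▸ Complex.re_le_norm v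
  have aux : ∀ z : ℂ, ‖z‖ = 1 → z.re = 1 → z = 1 := fun z h1 h2 => by
    have h3 := Complex.sq_norm z
    rw [h1, Complex.normSq_apply, h2] at h3
    refine Complex.ext (by simpa using h2) ?_
    have : z.im * z.im = 0 := by linarith
    simpa using this
  exact ⟨aux u hu1 (by linarith), aux v hv1 (by linarith)⟩

end Roots

section Equations

open MvPolynomial

variable {σ : Type*}

/-- The algebraic integers inside the algebraic numbers. -/
def toAlgebraic : OC →+* algebraicClosure ℚ ℂ where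
  toFun x := ⟨(x : ℂ), by
    rw [mem_algebraicClosure_iff]
    exact (IsFractionRing.isAlgebraic_iff ℤ ℚ ℂ).mp (x.2 : IsIntegral ℤ (x : ℂ)).isAlgebraic⟩
  map_one' := rfl
  map_mul' _ _ := rfl
  map_zero' := rfl
  map_add' _ _ := rfl

theorem exists_mul_mem_range_toAlgebraic (y : algebraicClosure ℚ ℂ) :
    ∃ d : OC, d ≠ 0 ∧ ∃ x : OC, toAlgebraic d * y = toAlgebraic x := by
  have hy : IsAlgebraic ℚ (y : ℂ) := mem_algebraicClosure_iff.mp y.2
  obtain ⟨m, hm, hint⟩ := ((IsFractionRing.isAlgebraic_iff ℤ ℚ ℂ).mpr hy).exists_integral_multiple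
  refine ⟨(m : OC), Int.cast_ne_zero.mpr hm, ⟨m • (y : ℂ), hint⟩, Subtype.ext ?_⟩
  show ((toAlgebraic (m : OC)) : ℂ) * (y : ℂ) = m • (y : ℂ)
  rw [map_intCast, zsmul_eq_mul]
  rfl

/-- Denominators of a polynomial. -/
theorem exists_C_mul_eq_map (q : MvPolynomial σ (algebraicClosure ℚ ℂ)) :
    ∃ d : OC, d ≠ 0 ∧ ∃ p : MvPolynomial σ OC,
      C (toAlgebraic d) * q = MvPolynomial.map toAlgebraic p := by
  induction q using MvPolynomial.induction_on with
  | C y =>
    obtain ⟨d, hd, x, hx⟩ := exists_mul_mem_range_toAlgebraic y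
    exact ⟨d, hd, C x, by rw [← C_mul, hx, MvPolynomial.map_C]⟩
  | add p q hp hq =>
    obtain ⟨d, hd, p', hp'⟩ := hp
    obtain ⟨e, he, q', hq'⟩ := hq
    refine ⟨d * e, mul_ne_zero hd he, C e * p' + C d * q', ?_⟩
    simp only [map_add, map_mul, MvPolynomial.map_C, ← hp', ← hq']
    ring
  | mul_X p i hp =>
    obtain ⟨d, hd, p', hp'⟩ := hp
    exact ⟨d, hd, p' * X i, by rw [map_mul, MvPolynomial.map_X, ← hp', mul_assoc]⟩

/-- **Solvability in `ℂ` from solvability in residue fields.** -/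
theorem exists_complex_solution [Finite σ] (P : Set (MvPolynomial σ OC))
    (h : ∀ c : OC, c ≠ 0 → ∃ (k : Type) (_ : Field k) (φ : OC →+* k) (x : σ → k),
      φ c ≠ 0 ∧ ∀ p ∈ P, MvPolynomial.eval₂ φ x p = 0) :
    ∃ z : σ → ℂ, ∀ p ∈ P, MvPolynomial.eval₂ (integralClosure ℤ ℂ).val.toRingHom z p = 0 := by
  classical
  set J : Ideal (MvPolynomial σ (algebraicClosure ℚ ℂ)) :=
    Ideal.span (MvPolynomial.map toAlgebraic '' P)
  have hJ : J ≠ ⊤ := fun htop => by
    have h1 : (1 : MvPolynomial σ (algebraicClosure ℚ ℂ)) ∈ J := htop ▸ Submodule.mem_top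
    have hmem : ∀ q ∈ J, ∃ d : OC, d ≠ 0 ∧ ∃ p ∈ Ideal.span P,
        C (toAlgebraic d) * q = MvPolynomial.map toAlgebraic p := by
      intro q hq
      induction hq using Submodule.span_induction with
      | mem q hq =>
        obtain ⟨p, hp, rfl⟩ := hq
        exact ⟨1, one_ne_zero, p, Ideal.subset_span hp, by rw [map_one, C_1, one_mul]⟩
      | zero => exact ⟨1, one_ne_zero, 0, zero_mem _, by rw [mul_zero, map_zero]⟩
      | add q₁ q₂ _ _ h₁ h₂ =>
        obtain ⟨d, hd, p₁, hp₁, e₁⟩ := h₁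
        obtain ⟨e, he, p₂, hp₂, e₂⟩ := h₂
        refine ⟨d * e, mul_ne_zero hd he, C e * p₁ + C d * p₂,
          add_mem (Ideal.mul_mem_left _ _ hp₁) (Ideal.mul_mem_left _ _ hp₂), ?_⟩
        simp only [map_add, map_mul, MvPolynomial.map_C, ← e₁, ← e₂]
        ring
      | smul a q _ h₁ =>
        obtain ⟨d, hd, p, hp, e₁⟩ := h₁
        obtain ⟨e, he, a', ha'⟩ := exists_C_mul_eq_map a
        refine ⟨e * d, mul_ne_zero he hd, a' * p, Ideal.mul_mem_left _ _ hp, ?_⟩
        simp only [map_mul, smul_eq_mul, ← e₁, ← ha']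
        ring
    obtain ⟨d, hd, p, hp, e⟩ := hmem 1 h1
    obtain ⟨k, hk, φ, x, hφd, hx⟩ := h d hd
    have hp0 : MvPolynomial.eval₂ φ x p = 0 := by
      have : Ideal.span P ≤ RingHom.ker (MvPolynomial.eval₂Hom φ x) :=
        Ideal.span_le.mpr fun p hp => hx p hp
      exact this hp
    have hinj : Function.Injective (toAlgebraic : OC →+* algebraicClosure ℚ ℂ) := fun a b hab =>
      Subtype.ext (congrArg (fun z : algebraicClosure ℚ ℂ => (z : ℂ)) hab :)
    rw [mul_one] at e
    obtain rfl : p = C d := MvPolynomial.map_injective _ hinj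
      (by rw [← e, MvPolynomial.map_C])
    rw [eval₂_C] at hp0
    exact hφd hp0
  obtain ⟨z, hz⟩ : (MvPolynomial.zeroLocus ℂ J).Nonempty := by
    by_contra hne
    have := MvPolynomial.vanishingIdeal_zeroLocus_eq_radical (K := ℂ) J
    rw [Set.not_nonempty_iff_eq_empty.mp hne, MvPolynomial.vanishingIdeal_empty] at this
    exact hJ (Ideal.radical_eq_top.mp this.symm)
  refine ⟨z, fun p hp => ?_⟩
  have h0 : MvPolynomial.aeval z (MvPolynomial.map toAlgebraic p) = (0 : ℂ) :=
    hz _ (Ideal.subset_span ⟨p, hp, rfl⟩)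
  rw [MvPolynomial.aeval_def, MvPolynomial.eval₂_map] at h0
  exact h0

end Equations

end FermatAgent.DeligneSerre
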