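import Fermat.Agent.DeligneSerre.Interface
import Mathlib

/-!
# Off a small set of primes the coefficients take finitely many values

An embedding of a number field in `ℂ` extends to an automorphism of `ℂ`, so the mean square
bound for the conjugates bounds every embedding outside a set of primes of small weight; there
are finitely many algebraic integers of the field with bounded conjugates.
-/

set_option autoImplicit false

noncomputable section

set_option maxHeartbeats 1000000
set_option synthInstance.maxHeartbeats 200000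

namespace FermatAgent.DeligneSerre

local notation "OC" => integralClosure ℤ ℂ

section Extend

/-- A transcendence basis over a field is one over an algebraic extension. -/
theorem isTranscendenceBasis_extend {F E A : Type*} [Field F] [Field E] [Field A] [Algebra F E]
    [Algebra E A] [Algebra F A] [IsScalarTower F E A] [Algebra.IsAlgebraic F E]
    {ι : Type*} {x : ι → A} (hx : IsTranscendenceBasis F x) : IsTranscendenceBasis E x := by
  refine ⟨hx.1.extendScalars E, fun t ht hle => hx.2 t ?_ hle⟩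
  exact AlgebraicIndependent.restrictScalars (FaithfulSMul.algebraMap_injective F E) ht

variable {E : IntermediateField ℚ ℂ} [FiniteDimensional ℚ E]

/-- An embedding of a number field extends to an automorphism of `ℂ`. -/
theorem exists_ringEquiv_extend (σ : E →ₐ[ℚ] ℂ) :
    ∃ τ : ℂ ≃+* ℂ, ∀ z : E, τ z = σ z := by
  obtain ⟨s, hs⟩ := exists_isTranscendenceBasis ℚ ℂ
  have : FiniteDimensional ℚ σ.fieldRange :=
    (AlgEquiv.ofInjectiveField σ).toLinearEquiv.finiteDimensional
  have h₁ : IsTranscendenceBasis E ((↑) : s → ℂ) := isTranscendenceBasis_extend hs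
  have h₂ : IsTranscendenceBasis σ.fieldRange ((↑) : s → ℂ) := isTranscendenceBasis_extend hs
  let := IsAlgClosed.isAlgClosure_of_transcendence_basis _ h₁
  let := IsAlgClosed.isAlgClosure_of_transcendence_basis _ h₂
  let e₀ : E ≃+* σ.fieldRange := (AlgEquiv.ofInjectiveField σ).toRingEquiv
  let e : Algebra.adjoin E (Set.range ((↑) : s → ℂ)) ≃+*
      Algebra.adjoin σ.fieldRange (Set.range ((↑) : s → ℂ)) :=
    h₁.1.aevalEquiv.symm.toRingEquiv.trans
      ((MvPolynomial.mapEquiv _ e₀).trans h₂.1.aevalEquiv.toRingEquiv)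
  refine ⟨IsAlgClosure.equivOfEquiv ℂ ℂ e, fun z => ?_⟩
  have h := IsAlgClosure.equivOfEquiv_algebraMap ℂ ℂ e
    (algebraMap E (Algebra.adjoin E (Set.range ((↑) : s → ℂ))) z)
  have he : e (algebraMap E (Algebra.adjoin E (Set.range ((↑) : s → ℂ))) z) =
      algebraMap σ.fieldRange _ (e₀ z) := by
    show h₂.1.aevalEquiv (MvPolynomial.mapEquiv _ e₀ (h₁.1.aevalEquiv.symm _)) = _
    rw [AlgEquiv.commutes, MvPolynomial.mapEquiv_apply, MvPolynomial.algebraMap_eq,
      MvPolynomial.map_C]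
    exact h₂.1.aevalEquiv.commutes (e₀ z)
  rw [he] at h
  exact h

end Extend

variable {N : ℕ} {a : ℕ → ℂ} {ε : DirichletCharacter ℂ N}

/-- The weight of a finite set of primes against `log (1 / (s - 1))`. -/
def WeightLE (P : ℕ → Prop) (δ D : ℝ) : Prop :=
  ∀ s : ℝ, 1 < s → s ≤ 3 / 2 → ∀ T : Finset ℕ, (∀ p ∈ T, P p) →
    ∑ p ∈ T, (p : ℝ) ^ (-s) ≤ δ * -Real.log (s - 1) + D

theorem log_term_nonneg {s : ℝ} (hs : 1 < s) (hs' : s ≤ 3 / 2) : 0 ≤ -Real.log (s - 1) :=
  neg_nonneg.mpr (Real.log_nonpos (by linarith) (by linarith))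

/-- **Finitely many values off a small set of primes.** -/
theorem exists_finite_values (he : CoeffField a ε) {η : ℝ} (hη : 0 < η) :
    ∃ (Y : Finset OC) (D : ℝ),
      WeightLE (fun p => p.Prime ∧ ¬ p ∣ N ∧ ∀ y ∈ Y, (y : ℂ) ≠ a p) η D := by
  classical
  obtain ⟨E, hE, hmem⟩ := he.finiteDimensional
  have : NumberField E := { to_charZero := inferInstance, to_finiteDimensional := hE }
  choose τ hτ using fun σ : E →ₐ[ℚ] ℂ => exists_ringEquiv_extend σ
  choose C hC using fun σ : E →ₐ[ℚ] ℂ => he.conj_bound (τ σ)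
  set K : ℝ := ∑ σ : E →ₐ[ℚ] ℂ, |C σ|
  have hK0 : 0 ≤ K := Finset.sum_nonneg fun σ _ => abs_nonneg _
  set c : ℝ := (K + 1) / η
  have hc : 0 < c := by positivity
  have hfin : {x : E | IsIntegral ℤ x ∧ ∀ φ : E →+* ℂ, ‖φ x‖ ≤ Real.sqrt c}.Finite :=
    NumberField.Embeddings.finite_of_norm_le E ℂ _
  let toOC : E → OC := fun x => if h : IsIntegral ℤ (x : ℂ) then ⟨(x : ℂ), h⟩ else 0
  refine ⟨hfin.toFinset.image toOC, η, fun s hs hs' T hT => ?_⟩
  have hbad : ∀ p ∈ T, c * (p : ℝ) ^ (-s) ≤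
      ∑ σ : E →ₐ[ℚ] ℂ, ‖τ σ (a p)‖ ^ 2 * (p : ℝ) ^ (-s) := fun p hp => by
    obtain ⟨hpp, hpN, hY⟩ := hT p hp
    rw [← Finset.sum_mul]
    refine mul_le_mul_of_nonneg_right ?_ (Real.rpow_nonneg (Nat.cast_nonneg p) _)
    by_contra! hlt
    set x : E := ⟨a p, (hmem p hpp hpN).1⟩
    have hint : IsIntegral ℤ x :=
      (isIntegral_algHom_iff (E.val.restrictScalars ℤ) Subtype.val_injective).mp
        (he.isIntegral p hpp hpN)
    refine hY (toOC x) (Finset.mem_image_of_mem _ (hfin.mem_toFinset.mpr ⟨hint, fun φ => ?_⟩)) ?_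
    · rw [show φ x = τ φ.toRatAlgHom (a p) from (hτ φ.toRatAlgHom x).symm,
        ← abs_norm, ← Real.sqrt_sq_eq_abs]
      exact Real.sqrt_le_sqrt ((Finset.single_le_sum
        (f := fun σ : E →ₐ[ℚ] ℂ => ‖τ σ (a p)‖ ^ 2) (fun σ _ => sq_nonneg _)
        (Finset.mem_univ _)).trans hlt.le)
    · simp only [toOC, dif_pos (show IsIntegral ℤ (x : ℂ) from he.isIntegral p hpp hpN)]
      rfl
  have h1 : c * ∑ p ∈ T, (p : ℝ) ^ (-s) ≤ K * -Real.log (s - 1) + K := by
    rw [Finset.mul_sum]
    refine (Finset.sum_le_sum hbad).trans ?_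
    rw [Finset.sum_comm, Finset.sum_mul, ← Finset.sum_add_distrib]
    refine Finset.sum_le_sum fun σ _ => ?_
    refine (hC σ s hs hs' T fun p hp => ⟨(hT p hp).1, (hT p hp).2.1⟩).trans ?_
    have := log_term_nonneg hs hs'
    nlinarith [le_abs_self (C σ)]
  have h2 := log_term_nonneg hs hs'
  refine le_of_mul_le_mul_left (h1.trans ?_) hc
  rw [show c * (η * -Real.log (s - 1) + η) = c * η * (-Real.log (s - 1) + 1) by ring,
    show c * η = K + 1 from div_mul_cancel₀ _ hη.ne']
  nlinarith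

end FermatAgent.DeligneSerre
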