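import Fermat.Agent.DeligneSerre.ImageBound
import Fermat.Agent.DeligneSerre.ImageRoots
import Fermat.Agent.DeligneSerre.ImageValues
import Fermat.Agent.DeligneSerre.Chebotarev

/-!
# The mod `ℓ` representations have bounded image and a common kernel

Off a small set of primes the characteristic polynomials of Frobenius elements lie in a finite
set, so the semisimple mod `ℓ` representations have images of bounded order; hence `a p` and
`ε p` are sums and products of two roots of unity of bounded order, and for large `ℓ` the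
kernels agree.
-/

set_option autoImplicit false
set_option maxHeartbeats 800000

noncomputable section

namespace FermatAgent.DeligneSerre

open Matrix

local notation "OC" => integralClosure ℤ ℂ
local notation "Qb" => AlgebraicClosure ℚ
local notation "GQ" => AlgebraicClosure ℚ ≃ₐ[ℚ] AlgebraicClosure ℚ
local notation "Mat" => Matrix (Fin 2) (Fin 2)

variable {N : ℕ} [NeZero N] {a : ℕ → ℂ} {ε : DirichletCharacter ℂ N}

/-- A homomorphism of finite level has finite image. -/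
theorem finite_range_of_factors {M : Type} [Group M] (ρ : GQ →* M)
    (hρ : GaloisFactorsThroughFiniteLevel ρ) : Finite ρ.range := by
  classical
  obtain ⟨L, hL, h1⟩ := hρ
  have key : ∀ σ τ : GQ, (σ : Qb →ₐ[ℚ] Qb).comp L.val = (τ : Qb →ₐ[ℚ] Qb).comp L.val →
      ρ σ = ρ τ := fun σ τ h => by
    have h2 : ρ (τ⁻¹ * σ) = 1 := h1 _ fun x hx => by
      have h3 : σ x = τ x := AlgHom.congr_fun h ⟨x, hx⟩
      rw [AlgEquiv.mul_apply, h3, ← AlgEquiv.mul_apply, inv_mul_cancel, AlgEquiv.one_apply]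
    rwa [map_mul, map_inv, inv_mul_eq_one, eq_comm] at h2
  let f : ρ.range → (L →ₐ[ℚ] Qb) := fun x => (x.2.choose : Qb →ₐ[ℚ] Qb).comp L.val
  exact Finite.of_injective f fun x y h => Subtype.ext
    (x.2.choose_spec.symm.trans ((key _ _ h).trans y.2.choose_spec))

/-- The trace of a power, from trace and determinant. -/
def powTr {R : Type*} [CommRing R] (t d : R) : ℕ → R
  | 0 => 2
  | 1 => t
  | n + 2 => t * powTr t d (n + 1) - d * powTr t d n

theorem trace_pow_eq {R : Type*} [CommRing R] (M : Mat R) (m : ℕ) :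
    (M ^ m).trace = powTr M.trace M.det m := by
  induction m using Nat.twoStepInduction with
  | zero => simp [powTr]
  | one => simp [powTr]
  | more n ih1 ih2 =>
    have sq : M * M = M.trace • M - M.det • 1 := by
      ext i j
      fin_cases i <;> fin_cases j <;>
        simp [Matrix.mul_apply, Fin.sum_univ_two, Matrix.trace_fin_two, Matrix.det_fin_two] <;> ring
    rw [powTr, ← ih1, ← ih2, pow_add, pow_two, sq, mul_sub, mul_smul_comm, mul_smul_comm, mul_one,
      ← pow_succ, Matrix.trace_sub, Matrix.trace_smul, Matrix.trace_smul, smul_eq_mul, smul_eq_mul]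

theorem map_powTr {R S : Type*} [CommRing R] [CommRing S] (φ : R →+* S) (t d : R) (m : ℕ) :
    φ (powTr t d m) = powTr (φ t) (φ d) m := by
  induction m using Nat.twoStepInduction with
  | zero => simp only [powTr, map_ofNat]
  | one => simp [powTr]
  | more n ih1 ih2 => simp [powTr, ih1, ih2]

theorem powTr_add_mul {R : Type*} [CommRing R] (u v : R) (m : ℕ) :
    powTr (u + v) (u * v) m = u ^ m + v ^ m := by
  induction m using Nat.twoStepInduction with
  | zero => simp [powTr]; norm_num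
  | one => simp [powTr]
  | more n ih1 ih2 => rw [powTr, ih1, ih2]; ring

/-- The representation mod `ℓ` attached to `a` and `ε` through `φ`. -/
def IsModRep (a : ℕ → ℂ) (ε : DirichletCharacter ℂ N) (ℓ : ℕ) {k : Type} [Field k] (φ : OC →+* k)
    (ρ : GQ →* GL (Fin 2) k) : Prop :=
  GaloisFactorsThroughFiniteLevel ρ ∧
    ∀ p : ℕ, p.Prime → ¬ p ∣ N * ℓ → ∀ A : ValuationSubring Qb, A.LiesOverPrime p →
      (∀ σ ∈ A.inertiaSubgroupIn ℚ, ρ σ = 1) ∧
      ∀ σ : GQ, A.IsFrobeniusAt σ p →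
        (∃ x : OC, (x : ℂ) = a p ∧ (ρ σ : Mat k).trace = φ x) ∧
        ∃ y : OC, (y : ℂ) = ε (p : ZMod N) ∧ (ρ σ : Mat k).det = φ y

/-- The values span the matrix algebra or are diagonal. -/
def IsSS {k : Type} [Field k] (ρ : GQ →* GL (Fin 2) k) : Prop :=
  Submodule.span k (Set.range fun g => (ρ g : Mat k)) = ⊤ ∨ IsDiagonal fun g => (ρ g : Mat k)

omit [NeZero N] in
theorem exists_isModRep_isSS {ℓ : ℕ} {k : Type} [Field k] [IsAlgClosed k] {φ : OC →+* k}
    {ρ : GQ →* GL (Fin 2) k} (h : IsModRep a ε ℓ φ ρ) :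
    ∃ ρ' : GQ →* GL (Fin 2) k, IsModRep a ε ℓ φ ρ' ∧ IsSS ρ' := by
  obtain ⟨ρ', hker, htd, hss⟩ := exists_semisimple ρ
  obtain ⟨⟨L, hL, hLfix⟩, hρ⟩ := h
  refine ⟨ρ', ⟨⟨L, hL, fun σ hσ => hker σ (hLfix σ hσ)⟩, fun p hp hpN A hA => ?_⟩, hss⟩
  obtain ⟨hI, hF⟩ := hρ p hp hpN A hA
  refine ⟨fun σ hσ => hker σ (hI σ hσ), fun σ hσ => ?_⟩
  rw [(htd σ).1, (htd σ).2]
  exact hF σ hσ

/-- The values of `ε` as algebraic integers. -/
def charValue (ε : DirichletCharacter ℂ N) (x : ZMod N) : OC := ⟨ε x, isIntegral_char ε x⟩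

omit [NeZero N] in
/-- Pairs `(trace, det)` and their inverses. -/
theorem exists_pairs {k : Type} [Field k] [DecidableEq k] (Y Z : Finset OC) (φ : OC →+* k) :
    ∃ Q : Finset (k × k), Q.card ≤ 2 * (Y.card * Z.card) ∧
      (∀ y ∈ Y, ∀ z ∈ Z, φ z ≠ 0 → (φ y, φ z) ∈ Q) ∧
      ∀ q ∈ Q, (q.1 / q.2, 1 / q.2) ∈ Q := by
  set Q₀ : Finset (k × k) := ((Y ×ˢ Z).image fun yz => (φ yz.1, φ yz.2)).filter fun q => q.2 ≠ 0
  refine ⟨Q₀ ∪ Q₀.image fun q => (q.1 / q.2, 1 / q.2), ?_, fun y hy z hz hz0 => ?_, fun q hq => ?_⟩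
  · refine (Finset.card_union_le _ _).trans ?_
    have h0 : Q₀.card ≤ Y.card * Z.card :=
      (Finset.card_filter_le _ _).trans (Finset.card_image_le.trans (Finset.card_product Y Z).le)
    have h1 : (Q₀.image fun q : k × k => (q.1 / q.2, 1 / q.2)).card ≤ Q₀.card := Finset.card_image_le
    omega
  · exact Finset.mem_union_left _ (Finset.mem_filter.mpr
      ⟨Finset.mem_image.mpr ⟨(y, z), Finset.mem_product.mpr ⟨hy, hz⟩, rfl⟩, hz0⟩)
  · rcases Finset.mem_union.mp hq with hq | hq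
    · exact Finset.mem_union_right _ (Finset.mem_image_of_mem _ hq)
    · obtain ⟨q', hq', rfl⟩ := Finset.mem_image.mp hq
      refine Finset.mem_union_left _ ?_
      have h0 : q'.2 ≠ 0 := (Finset.mem_filter.mp hq').2
      convert hq' using 1
      refine Prod.ext ?_ ?_
      · show q'.1 / q'.2 / (1 / q'.2) = q'.1
        field_simp
      · show 1 / (1 / q'.2) = q'.2
        field_simp

/-- **Bounded image.** -/
theorem exists_card_range_le (he : CoeffField a ε) :
    ∃ B : ℕ, ∀ (ℓ : ℕ), ℓ.Prime → ∀ (k : Type) [Field k] (φ : OC →+* k)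
      (ρ : GQ →* GL (Fin 2) k), IsModRep a ε ℓ φ ρ → IsSS ρ → Nat.card ρ.range ≤ B := by
  classical
  obtain ⟨Y, D, hY⟩ := exists_finite_values he (η := 1 / 8) (by norm_num)
  set Z : Finset OC := Finset.univ.image (charValue ε)
  set M := 2 * (Y.card * Z.card)
  refine ⟨2 * M ^ 4 + 3 * (M * M), fun ℓ hℓ k _ φ ρ hρ hss => ?_⟩
  obtain ⟨Q, hQcard, hQmem, hQinv⟩ := exists_pairs Y Z φ
  have : Finite ρ.range := finite_range_of_factors ρ hρ.1
  set G := ρ.range
  let r : GQ →* G := ρ.rangeRestrict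
  let val : G → Mat k := fun g => ((g : GL (Fin 2) k) : Mat k)
  set C : Set G := {g | ((val g).trace, (val g).det) ∉ Q}
  have hconj : ∀ g, ∀ x ∈ C, g * x * g⁻¹ ∈ C := fun g x hx => by
    simp only [C, val, Set.mem_ofPred_eq, Subgroup.coe_mul, Subgroup.coe_inv, Units.val_mul,
      Matrix.trace_units_conj, Matrix.det_units_conj] at hx ⊢
    exact hx
  have hinv : ∀ x ∈ C, x⁻¹ ∈ C := fun x hx hx' => hx (by
    have h := hQinv _ hx'
    set P : Mat k := val x
    set P' : Mat k := val x⁻¹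
    have hP : P * P' = 1 := by
      show ((x : GL (Fin 2) k) : Mat k) * ((x⁻¹ : G) : GL (Fin 2) k) = 1
      rw [← Units.val_mul, ← Subgroup.coe_mul, mul_inv_cancel]; rfl
    have hd : P.det * P'.det = 1 := by rw [← Matrix.det_mul, hP, Matrix.det_one]
    have hd0 : P.det ≠ 0 := left_ne_zero_of_mul_eq_one hd
    have hadj : P' = P.det⁻¹ • P.adjugate := by
      have h2 := congrArg (P.adjugate * ·) hP
      rw [← mul_assoc, Matrix.adjugate_mul, mul_one, smul_mul_assoc, one_mul] at h2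
      rw [← h2, smul_smul, inv_mul_cancel₀ hd0, one_smul]
    have ht : P'.trace = P.trace / P.det := by
      rw [hadj, Matrix.adjugate_fin_two, Matrix.trace_smul, Matrix.trace_fin_two,
        Matrix.trace_fin_two]
      simp [div_eq_inv_mul, add_comm]
    have hd' : P'.det = P.det⁻¹ := eq_inv_of_mul_eq_one_right hd
    have e : P.trace / P.det / P.det⁻¹ = P.trace := by field_simp
    have e' : 1 / P.det⁻¹ = P.det := by field_simp
    rwa [ht, hd', e, e'] at h)
  have hC : (Nat.card C : ℝ) ≤ 1 / 8 * Nat.card G := by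
    refine card_le_of_upperDens r ρ.rangeRestrict_surjective ?_ C hconj hinv
      (insert ℓ N.divisors) _ D fun s hs hs' T hT => hY s hs hs' T fun p hp => ?_
    · obtain ⟨L, hL, h⟩ := hρ.1
      exact ⟨L, hL, fun σ hσ => Subtype.ext (h σ hσ)⟩
    · obtain ⟨hpp, hpS, A, hA, σ, hσ, hσC⟩ := hT p hp
      rw [Finset.mem_insert, Nat.mem_divisors, not_or, not_and_or, not_not] at hpS
      have hpN : ¬ p ∣ N := hpS.2.resolve_right (NeZero.ne N)
      have hpNℓ : ¬ p ∣ N * ℓ := fun h => (hpp.dvd_mul.mp h).elim hpN fun h' =>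
        hpS.1 ((Nat.prime_dvd_prime_iff_eq hpp hℓ).mp h')
      refine ⟨hpp, hpN, fun y hy hya => hσC ?_⟩
      obtain ⟨⟨x, hx, htr⟩, z, hz, hdet⟩ := (hρ.2 p hpp hpNℓ A hA).2 σ hσ
      show ((ρ σ : Mat k).trace, (ρ σ : Mat k).det) ∈ Q
      rw [htr, hdet, show x = y from Subtype.ext (hx.trans hya.symm)]
      refine hQmem y hy z (Finset.mem_image.mpr ⟨(p : ZMod N), Finset.mem_univ _,
        Subtype.ext hz.symm⟩) ?_
      rw [← hdet]
      exact (Matrix.isUnit_iff_isUnit_det _).mp (ρ σ).isUnit |>.ne_zero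
  have hGpos : (0 : ℝ) < Nat.card G := Nat.cast_pos.mpr Nat.card_pos
  have hcast : ((2 * M ^ 4 + 3 * (M * M) : ℕ) : ℝ) = 2 * (M : ℝ) ^ 4 + 3 * ((M : ℝ) * M) := by
    push_cast; ring
  rw [← @Nat.cast_le ℝ, hcast]
  rcases hss with hspan | hdiag
  · have h := card_le_of_span (k := k) (G := G) ((Units.coeHom _).comp G.subtype)
      (fun x y e => Subtype.ext (Units.ext e)) (by
        rw [eq_top_iff, ← hspan]
        refine Submodule.span_mono ?_
        rintro _ ⟨g, rfl⟩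
        exact ⟨r g, rfl⟩) (Q.image Prod.fst) (η := 1 / 8) (by
        refine le_trans (Nat.cast_le.mpr (Nat.card_mono (Set.toFinite C) fun g hg hgQ => ?_)) hC
        exact hg (Finset.mem_image_of_mem Prod.fst hgQ))
    have h4 : ((Q.image Prod.fst).card : ℝ) ^ 4 ≤ (M : ℝ) ^ 4 :=
      pow_le_pow_left₀ (Nat.cast_nonneg _)
        (Nat.cast_le.mpr (Finset.card_image_le.trans hQcard)) 4
    nlinarith [sq_nonneg (M : ℝ)]
  · have hd : ∀ g : G, val g 0 1 = 0 ∧ val g 1 0 = 0 := by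
      rintro ⟨_, σ, rfl⟩
      exact hdiag σ
    let χ : G →* k × k :=
      { toFun := fun g => (val g 0 0, val g 1 1)
        map_one' := by simp [val]
        map_mul' := fun g h => by
          have hm : val (g * h) = val g * val h := rfl
          rw [hm]
          simp [Matrix.mul_apply, Fin.sum_univ_two, (hd g).1, (hd g).2, (hd h).1, (hd h).2] }
    have h := card_le_of_pair χ (fun x y e => Subtype.ext (Units.ext (by
        obtain ⟨e₁, e₂⟩ := Prod.ext_iff.mp e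
        ext i j
        fin_cases i <;> fin_cases j
        · exact e₁
        · exact (hd x).1.trans (hd y).1.symm
        · exact (hd x).2.trans (hd y).2.symm
        · exact e₂)))
      (Q.image Prod.fst) (Q.image Prod.snd) (η := 1 / 8) (by
        refine le_trans (Nat.cast_le.mpr (Nat.card_mono (Set.toFinite C) fun g hg hgQ => hg ?_)) hC
        have htr : (val g).trace = val g 0 0 + val g 1 1 := Matrix.trace_fin_two _
        have hdet : (val g).det = val g 0 0 * val g 1 1 := by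
          rw [Matrix.det_fin_two, (hd g).1]; ring
        exact ⟨Finset.mem_image.mpr ⟨_, hgQ, htr⟩, Finset.mem_image.mpr ⟨_, hgQ, hdet⟩⟩)
    have h1 : ((Q.image Prod.fst).card : ℝ) ≤ M := Nat.cast_le.mpr (Finset.card_image_le.trans hQcard)
    have h2 : ((Q.image Prod.snd).card : ℝ) ≤ M := Nat.cast_le.mpr (Finset.card_image_le.trans hQcard)
    have h3 := mul_le_mul h1 h2 (Nat.cast_nonneg _) (Nat.cast_nonneg _)
    nlinarith [pow_nonneg (Nat.cast_nonneg (α := ℝ) M) 4]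

/-- Every prime is the residue characteristic of an algebraically closed quotient of `OC`. -/
theorem exists_residue_hom {ℓ : ℕ} (hℓ : ℓ.Prime) :
    ∃ (k : Type) (_ : Field k) (_ : IsAlgClosed k) (_ : CharP k ℓ), Nonempty (OC →+* k) := by
  classical
  have hnu : ¬ IsUnit (ℓ : OC) := fun h => by
    obtain ⟨c, hc⟩ := h.exists_right_inv
    have hc' : (ℓ : ℂ) * (c : ℂ) = 1 := by simpa using congrArg Subtype.val hc
    have h2 : IsIntegral ℤ ((ℓ : ℚ)⁻¹) := by
      have e : algebraMap ℚ ℂ ((ℓ : ℚ)⁻¹) = (c : ℂ) := by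
        rw [map_inv₀, map_natCast]
        exact (eq_inv_of_mul_eq_one_right hc').symm
      exact (isIntegral_algHom_iff (IsScalarTower.toAlgHom ℤ ℚ ℂ) (algebraMap ℚ ℂ).injective).mp
        (e.symm ▸ c.2)
    obtain ⟨z, hz⟩ := IsIntegrallyClosed.isIntegral_iff.mp h2
    have hz' : (z : ℚ) * (ℓ : ℤ) = (1 : ℤ) := by
      rw [show (z : ℚ) = (ℓ : ℚ)⁻¹ from hz, Int.cast_natCast, Int.cast_one,
        inv_mul_cancel₀ (Nat.cast_ne_zero.mpr hℓ.ne_zero)]
    rw [← Int.cast_mul, Int.cast_inj] at hz'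
    exact hℓ.ne_one (by exact_mod_cast Int.eq_one_of_mul_eq_one_left (Int.natCast_nonneg ℓ) hz')
  obtain ⟨𝔪, h𝔪, hle⟩ := Ideal.exists_le_maximal _ (mt Ideal.span_singleton_eq_top.mp hnu)
  let _ : Field (OC ⧸ 𝔪) := Ideal.Quotient.field 𝔪
  refine ⟨OC ⧸ 𝔪, inferInstance, IsAlgClosed.of_exists_root _ fun q hq hirr => ?_, ?_,
    ⟨Ideal.Quotient.mk 𝔪⟩⟩
  · obtain ⟨Q, hQ, hQdeg, hQm⟩ := Polynomial.lifts_and_degree_eq_and_monic
      ((Polynomial.mem_lifts q).mpr (Polynomial.map_surjective _ Ideal.Quotient.mk_surjective q)) hq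
    obtain ⟨z, hz⟩ := IsAlgClosed.exists_root (Q.map (algebraMap OC ℂ)) (by
      rw [Polynomial.degree_map_eq_of_injective Subtype.val_injective, hQdeg]
      exact (Polynomial.degree_pos_of_irreducible hirr).ne')
    have hzint : IsIntegral ℤ z := by
      have : IsIntegral OC z := ⟨Q, hQm, by rwa [← Polynomial.eval_map]⟩
      exact isIntegral_trans z this
    refine ⟨Ideal.Quotient.mk 𝔪 ⟨z, hzint⟩, ?_⟩
    rw [← hQ, Polynomial.eval_map, Polynomial.eval₂_at_apply]
    have h0 : Q.eval ⟨z, hzint⟩ = 0 := by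
      refine (Subtype.val_injective : Function.Injective (Subtype.val : OC → ℂ)) ?_
      show algebraMap OC ℂ _ = 0
      rw [← Polynomial.eval₂_at_apply, ← Polynomial.eval_map]
      exact hz
    rw [h0, map_zero]
  · rw [CharP.charP_iff_prime_eq_zero hℓ, ← map_natCast (Ideal.Quotient.mk 𝔪),
      Ideal.Quotient.eq_zero_iff_mem]
    exact hle (Ideal.mem_span_singleton_self _)

/-- Consistency of the mod `ℓ` representations. -/
theorem exists_compatible (he : CoeffField a ε) (hm : HasModLReps a ε) :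
    ∃ (b : ℕ) (n : ℕ), 0 < n ∧
      (∀ p : ℕ, p.Prime → ¬ p ∣ N → ∃ u ∈ unityRoots n, ∃ v ∈ unityRoots n,
        (u : ℂ) + (v : ℂ) = a p ∧ (u : ℂ) * (v : ℂ) = ε (p : ZMod N)) ∧
      (∀ ℓ : ℕ, ℓ.Prime → b < ℓ → ∃ (k : Type) (_ : Field k) (_ : IsAlgClosed k) (_ : CharP k ℓ)
        (φ : OC →+* k) (ρ : GQ →* GL (Fin 2) k), IsModRep a ε ℓ φ ρ ∧ IsSS ρ) ∧
      ∀ (ℓ ℓ' : ℕ), ℓ.Prime → ℓ'.Prime → b < ℓ → b < ℓ' →
        ∀ (k k' : Type) [Field k] [Field k'] [IsAlgClosed k] [IsAlgClosed k'] [CharP k ℓ]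
          [CharP k' ℓ'] (φ : OC →+* k) (φ' : OC →+* k') (ρ : GQ →* GL (Fin 2) k)
          (ρ' : GQ →* GL (Fin 2) k'), IsModRep a ε ℓ φ ρ → IsModRep a ε ℓ' φ' ρ' →
          IsSS ρ → IsSS ρ' → ∀ σ, ρ σ = 1 → ρ' σ = 1 := by
  classical
  obtain ⟨B, hB⟩ := exists_card_range_le he
  obtain ⟨ℓ₀, hℓ₀⟩ := hm
  set n := B.factorial with hndef
  have hn : 0 < n := B.factorial_pos
  have hpow : ∀ {ℓ : ℕ}, ℓ.Prime → B < ℓ → ∀ {k : Type} [Field k] [CharP k ℓ] {φ : OC →+* k}
      {ρ : GQ →* GL (Fin 2) k}, IsModRep a ε ℓ φ ρ → IsSS ρ → (n : k) ≠ 0 ∧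
      ∀ σ, ((ρ σ : Mat k)) ^ n = 1 := by
    intro ℓ hℓ hBℓ k _ _ φ ρ hρ hss
    have : Finite ρ.range := finite_range_of_factors ρ hρ.1
    refine ⟨fun h => ?_, fun σ => ?_⟩
    · rw [CharP.cast_eq_zero_iff k ℓ, hℓ.dvd_factorial] at h
      omega
    · have hdvd : orderOf (⟨ρ σ, σ, rfl⟩ : ρ.range) ∣ n := Nat.dvd_factorial (orderOf_pos _)
        ((Nat.le_of_dvd Nat.card_pos (orderOf_dvd_natCard _)).trans (hB ℓ hℓ k φ ρ hρ hss))
      have h := orderOf_dvd_iff_pow_eq_one.mp hdvd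
      have h2 := congrArg (fun g : ρ.range => ((g : GL (Fin 2) k) : Mat k)) h
      simpa using h2
  have hreps : ∀ ℓ : ℕ, ℓ.Prime → ℓ₀ ≤ ℓ → ∃ (k : Type) (_ : Field k) (_ : IsAlgClosed k)
      (_ : CharP k ℓ) (φ : OC →+* k) (ρ : GQ →* GL (Fin 2) k), IsModRep a ε ℓ φ ρ ∧ IsSS ρ := by
    intro ℓ hℓ hle
    obtain ⟨k, _, _, _, ⟨φ⟩⟩ := exists_residue_hom hℓ
    obtain ⟨ρ, hρ⟩ := hℓ₀ ℓ hℓ hle k φ
    obtain ⟨ρ', hρ', hss⟩ := exists_isModRep_isSS (φ := φ) (ρ := ρ) hρ
    exact ⟨k, inferInstance, inferInstance, inferInstance, φ, ρ', hρ', hss⟩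
  obtain ⟨b₁, hb₁⟩ := exists_forall_map_ne_zero_finset
    ((unityRoots n ×ˢ unityRoots n).image fun uv => uv.1 + uv.2 - 2)
  set b := B + ℓ₀ + b₁
  have hval : ∀ p : ℕ, p.Prime → ¬ p ∣ N → ∃ u ∈ unityRoots n, ∃ v ∈ unityRoots n,
      (u : ℂ) + (v : ℂ) = a p ∧ (u : ℂ) * (v : ℂ) = ε (p : ZMod N) := by
    intro p hp hpN
    by_contra hno
    push Not at hno
    set x : OC := ⟨a p, he.isIntegral p hp hpN⟩
    set y : OC := charValue ε (p : ZMod N)
    obtain ⟨b₂, hb₂⟩ := exists_forall_map_ne_zero_finset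
      (((unityRoots n ×ˢ unityRoots n).image fun uv => x - (uv.1 + uv.2)) ∪
        ((unityRoots n ×ˢ unityRoots n).image fun uv => y - uv.1 * uv.2))
    obtain ⟨ℓ, hℓb, hℓ⟩ := Nat.exists_infinite_primes (b + b₂ + p + 1)
    obtain ⟨k, _, _, _, φ, ρ, hρ, hss⟩ := hreps ℓ hℓ (by omega)
    have hpℓ : ¬ p ∣ N * ℓ := fun h => (hp.dvd_mul.mp h).elim hpN fun h' => by
      have := (Nat.prime_dvd_prime_iff_eq hp hℓ).mp h'
      omega
    obtain ⟨A, hA⟩ := FermatAgent.RT.exists_liesOverPrime hp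
    obtain ⟨σ, hσ⟩ := FermatAgent.RT.exists_isFrobeniusAt hp hA
    obtain ⟨⟨x', hx', htr⟩, y', hy', hdet⟩ := (hρ.2 p hp hpℓ A hA).2 σ hσ
    obtain ⟨u, hu, v, hv, htr', hdet'⟩ :=
      exists_unityRoots_trace_det φ hn ((hpow hℓ (by omega) hρ hss).2 σ)
    have hmem : (u, v) ∈ unityRoots n ×ˢ unityRoots n := Finset.mem_product.mpr ⟨hu, hv⟩
    have e1 : x = u + v := by
      by_contra hne
      refine hb₂ ℓ (by omega) k φ _ (Finset.mem_union_left _ (Finset.mem_image_of_mem _ hmem))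
        (sub_ne_zero.mpr hne) ?_
      rw [map_sub, sub_eq_zero, ← htr', htr, show x' = x from Subtype.ext hx']
    have e2 : y = u * v := by
      by_contra hne
      refine hb₂ ℓ (by omega) k φ _ (Finset.mem_union_right _ (Finset.mem_image_of_mem _ hmem))
        (sub_ne_zero.mpr hne) ?_
      rw [map_sub, sub_eq_zero, ← hdet', hdet, show y' = y from Subtype.ext hy']
    exact hno u hu v hv (congrArg Subtype.val e1).symm (congrArg Subtype.val e2).symm
  refine ⟨b, n, hn, hval, fun ℓ hℓ hb => hreps ℓ hℓ (by omega), ?_⟩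
  intro ℓ ℓ' hℓ hℓ' hb hb' k k' _ _ _ _ _ _ φ φ' ρ ρ' hρ hρ' hss hss' σ hσ
  obtain ⟨hn0, hρn⟩ := hpow hℓ' (by omega) hρ' hss'
  obtain ⟨L, hL, hLfix⟩ := hρ.1
  obtain ⟨L', hL', hLfix'⟩ := hρ'.1
  have hfac : GaloisFactorsThroughFiniteLevel (ρ.prod ρ') :=
    ⟨L ⊔ L', IntermediateField.finiteDimensional_sup L L', fun τ hτ => Prod.ext
      (hLfix τ fun z hz => hτ z (le_sup_left (b := L') hz))
      (hLfix' τ fun z hz => hτ z (le_sup_right (a := L) hz))⟩
  have key := FermatAgent.GalRep.forall_of_frobenius (ρ.prod ρ') hfac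
    (S := {p | p ∣ N * ℓ * ℓ'}) ((Nat.divisors (N * ℓ * ℓ')).finite_toSet.subset fun p hp =>
      Finset.mem_coe.mpr (Nat.mem_divisors.mpr
        ⟨hp, mul_ne_zero (mul_ne_zero (NeZero.ne N) hℓ.ne_zero) hℓ'.ne_zero⟩))
    (fun z => ∀ m : ℕ, z.1 ^ m = 1 → z.2 ^ m = 1)
    (fun z j hz m h => by
      rw [Prod.pow_snd, ← pow_mul]
      refine hz (j * m) ?_
      rw [pow_mul, ← Prod.pow_fst]
      exact h)
    (fun p hp hpS A hA τ hτ m h => ?_) σ 1 (by rw [pow_one]; exact hσ)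
  · simpa using key
  · simp only [Set.mem_ofPred_eq] at hpS
    have hp1 : ¬ p ∣ N * ℓ := fun h' => hpS (h'.mul_right ℓ')
    have hp2 : ¬ p ∣ N * ℓ' := fun h' => hpS (by rw [mul_right_comm]; exact h'.mul_right ℓ)
    obtain ⟨⟨x, hx, htr⟩, y, hy, hdet⟩ := (hρ.2 p hp hp1 A hA).2 τ hτ
    obtain ⟨⟨x', hx', htr'⟩, y', hy', hdet'⟩ := (hρ'.2 p hp hp2 A hA).2 τ hτ
    obtain ⟨u, hu, v, hv, hsum, hprod⟩ := hval p hp fun h' => hp1 (h'.mul_right ℓ)
    have hxe : x = u + v := Subtype.ext (hx.trans hsum.symm)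
    have hxe' : x' = u + v := Subtype.ext (hx'.trans hsum.symm)
    have hye' : y' = u * v := Subtype.ext (hy'.trans hprod.symm)
    have hye : y = u * v := Subtype.ext (hy.trans hprod.symm)
    have hmu : u ^ m ∈ unityRoots n := by
      rw [mem_unityRoots hn] at hu ⊢
      rw [← pow_mul, mul_comm, pow_mul, hu, one_pow]
    have hmv : v ^ m ∈ unityRoots n := by
      rw [mem_unityRoots hn] at hv ⊢
      rw [← pow_mul, mul_comm, pow_mul, hv, one_pow]
    have h2 : ((ρ τ : Mat k)) ^ m = 1 := by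
      rw [← Units.val_pow_eq_pow_val]
      exact congrArg Units.val h
    have h3 : φ (u ^ m + v ^ m - 2) = 0 := by
      have h4 := trace_pow_eq (ρ τ : Mat k) m
      rw [h2, htr, hdet, hxe, hye, ← map_powTr, powTr_add_mul, Matrix.trace_one] at h4
      rw [map_sub, ← h4, map_ofNat]
      simp
    have h5 : u ^ m + v ^ m - 2 = 0 := by
      by_contra hne
      exact hb₁ ℓ (by omega) k φ _ (Finset.mem_image.mpr
        ⟨(u ^ m, v ^ m), Finset.mem_product.mpr ⟨hmu, hmv⟩, rfl⟩) hne h3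
    obtain ⟨hu1, hv1⟩ := eq_one_of_add_eq_two hn.ne'
      (congrArg Subtype.val ((mem_unityRoots hn).mp hmu))
      (congrArg Subtype.val ((mem_unityRoots hn).mp hmv)) (by
        have h6 := congrArg Subtype.val (sub_eq_zero.mp h5)
        rw [AddMemClass.coe_add] at h6
        exact h6.trans (map_ofNat (integralClosure ℤ ℂ).val 2))
    have hu2 : u ^ m = 1 := Subtype.ext hu1
    have hv2 : v ^ m = 1 := Subtype.ext hv1
    refine Units.ext ?_
    show (((ρ' τ) ^ m : GL (Fin 2) k') : Mat k') = 1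
    rw [Units.val_pow_eq_pow_val]
    refine eq_one_of_trace_eq_two ?_ ?_ hn0 ?_
    · rw [trace_pow_eq, htr', hdet', hxe', hye', ← map_powTr, powTr_add_mul, hu2, hv2, map_add,
        map_one]
      norm_num
    · rw [Matrix.det_pow, hdet', hye', ← map_pow, mul_pow, hu2, hv2, one_mul, map_one]
    · rw [← pow_mul, mul_comm, pow_mul, hρn, one_pow]

end FermatAgent.DeligneSerre
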