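import Fermat.Agent.DeligneSerre.Assembly
import Fermat.Agent.DeligneSerre.ModL.Equivariant

/-!
# The theorem of Deligne and Serre
-/

set_option autoImplicit false

noncomputable section

open CongruenceSubgroup
open ModularFormClass (qCoeff)

namespace FermatAgent.DeligneSerre

local notation "GQ" => AlgebraicClosure ℚ ≃ₐ[ℚ] AlgebraicClosure ℚ

/-- The torsion models of level `N ℓ`. -/
theorem exists_torsionModels (N : ℕ) [NeZero N] :
    ∃ B : ℕ, ∀ (ℓ : ℕ) [NeZero ℓ], ℓ.Prime → B ≤ ℓ →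
      Nonempty (ModL.TorsionModel (N * ℓ) ℓ) := by
  refine ⟨7, fun ℓ _ hℓ h7 => ?_⟩
  have h5 : 5 < N * ℓ := lt_of_lt_of_le (by omega : 5 < 1 * ℓ)
    (Nat.mul_le_mul_right ℓ (Nat.one_le_iff_ne_zero.mpr (NeZero.ne N)))
  have := Curves.isCurveGroup_gam (M := N * ℓ) h5.le
  have : Fact ℓ.Prime := ⟨hℓ⟩
  exact ModL.nonempty_torsionModel_of_equivariantC h5 (ModL.equivariantC (N * ℓ) ℓ h5.le)

/-- **Deligne–Serre**: a weight one eigenform has an irreducible Galois representation. -/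
theorem exists_galoisRep_weightOne {N : ℕ} [NeZero N] {ε : DirichletCharacter ℂ N}
    {f : CuspForm (Gamma1 N) 1} (hf₁ : qCoeff f 1 = 1)
    (hT : ∀ p : ℕ, p.Prime → ¬ p ∣ N → ∀ n : ℕ,
      qCoeff f (p * n) + ε (p : ZMod N) * (if p ∣ n then qCoeff f (n / p) else 0) =
        qCoeff f p * qCoeff f n) :
    ∃ ρ : GQ →* GL (Fin 2) ℂ, GaloisFactorsThroughFiniteLevel ρ ∧
      (Deformation.matrixRepresentation ρ).IsIrreducible ∧
      ∀ p : ℕ, p.Prime → ¬ p ∣ N →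
        ∀ A : ValuationSubring (AlgebraicClosure ℚ), A.LiesOverPrime p →
          (∀ σ ∈ A.inertiaSubgroupIn ℚ, ρ σ = 1) ∧
          ∀ σ : GQ, A.IsFrobeniusAt σ p →
            ((ρ σ : GL (Fin 2) ℂ) : Matrix (Fin 2) (Fin 2) ℂ).trace = qCoeff f p ∧
            ((ρ σ : GL (Fin 2) ℂ) : Matrix (Fin 2) (Fin 2) ℂ).det = ε (p : ZMod N) :=
  exists_galoisRep_of_geometry (exists_torsionModels N) hf₁ hT

end FermatAgent.DeligneSerre
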