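import Mathlib
import Fermat.Prelude.Def_FLTPrelim_Modularity

/-!
# Mean square of the coefficients of a cusp form of weight one

For a cusp form `f` of weight one with period `1`, Parseval on a horizontal segment and the bound
`‖f τ‖ ≤ C / √(im τ)` give `∑_{n < X} ‖aₙ‖² = O(X)`, hence `∑ ‖aₙ‖² n ^ (-s) = O(1 / (s - 1))`.
-/

set_option autoImplicit false

noncomputable section

open UpperHalfPlane MeasureTheory Finset
open scoped Real

namespace FermatAgent.DeligneSerre

variable {Γ : Subgroup (GL (Fin 2) ℝ)} [Γ.IsArithmetic] {F : Type*} [FunLike F ℍ ℂ]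
  [CuspFormClass F Γ 1]

/-- The point `x + i y`. -/
def horPt (x : ℝ) {y : ℝ} (hy : 0 < y) : ℍ := ⟨x + y * Complex.I, by simpa using hy⟩

omit [Γ.IsArithmetic] in
/-- Parseval on a horizontal segment bounds the coefficients by the values. -/
theorem sum_norm_sq_le_of_bound (f : F) (hΓ : (1 : ℝ) ∈ Γ.strictPeriods) {y B : ℝ} (hy : 0 < y)
    (hB : ∀ x : ℝ, ‖f (horPt x hy)‖ ≤ B) (X : ℕ) :
    ∑ n ∈ range X, ‖(qExpansion 1 f).coeff n‖ ^ 2 * rexp (-(4 * π * n * y)) ≤ B ^ 2 := by
  set g : ℝ → ℂ := fun x => f (horPt x hy) with hg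
  have hc : Continuous g := (ModularFormClass.holo (k := 1) (Γ := Γ) f).continuous.comp (by
    rw [UpperHalfPlane.isEmbedding_coe.continuous_iff]
    exact Complex.continuous_ofReal.add continuous_const)
  have hL2 : MemLp g 2 (volume.restrict (Set.Ioc (0 : ℝ) 1)) :=
    MemLp.of_bound hc.aestronglyMeasurable B (Filter.Eventually.of_forall hB)
  have hsum := hasSum_sq_fourierCoeffOn zero_lt_one hL2
  have key : ∀ n : ℕ, ‖fourierCoeffOn zero_lt_one g (n : ℤ)‖ =
      ‖(qExpansion 1 f).coeff n‖ * rexp (-(2 * π * n * y)) := fun n => by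
    rw [ModularFormClass.qExpansion_coeff_eq_intervalIntegral (F := F) (k := 1) f one_pos hΓ n hy,
      fourierCoeffOn_eq_integral g (n : ℤ) zero_lt_one]
    have e : ∀ u : ℝ, fourier (-(n : ℤ)) (u : AddCircle ((1 : ℝ) - 0)) • g u =
        Complex.exp (-(2 * π * n * y : ℝ)) *
          (1 / Function.Periodic.qParam 1 (u + y * Complex.I) ^ n * g u) := fun u => by
      rw [fourier_coe_apply, smul_eq_mul, ← mul_assoc, Function.Periodic.qParam,
        ← Complex.exp_nat_mul, one_div, ← Complex.exp_neg, ← Complex.exp_add]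
      congr 2
      push_cast
      linear_combination (2 * π * n * y : ℂ) * Complex.I_sq
    simp_rw [e]
    rw [intervalIntegral.integral_const_mul, sub_zero, div_one, one_smul, norm_mul,
      Complex.norm_exp, mul_comm]
    simp [horPt, hg]
  calc ∑ n ∈ range X, ‖(qExpansion 1 f).coeff n‖ ^ 2 * rexp (-(4 * π * n * y))
      = ∑ i ∈ (range X).map Nat.castEmbedding, ‖fourierCoeffOn zero_lt_one g i‖ ^ 2 := by
        rw [sum_map]
        refine sum_congr rfl fun n _ => ?_
        rw [Nat.castEmbedding_apply, key, mul_pow, ← Real.exp_nat_mul]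
        push_cast
        ring_nf
    _ ≤ ((1 : ℝ) - 0)⁻¹ • ∫ x in (0 : ℝ)..1, ‖g x‖ ^ 2 :=
        sum_le_hasSum _ (fun i _ => sq_nonneg _) hsum
    _ ≤ B ^ 2 := by
        rw [sub_zero, inv_one, one_smul]
        refine (intervalIntegral.integral_mono_on zero_le_one ((hc.norm.pow 2).intervalIntegrable _ _)
          (_root_.intervalIntegrable_const (c := B ^ 2)) fun x _ =>
            pow_le_pow_left₀ (norm_nonneg _) (hB x) 2).trans ?_
        simp

/-- The coefficients of a cusp form of weight one have bounded mean square. -/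
theorem exists_sum_norm_sq_le (f : F) (hΓ : (1 : ℝ) ∈ Γ.strictPeriods) :
    ∃ C : ℝ, 0 ≤ C ∧ ∀ X : ℕ,
      ∑ n ∈ range X, ‖(qExpansion 1 f).coeff n‖ ^ 2 ≤ C * X := by
  obtain ⟨C, hC⟩ := CuspFormClass.exists_bound (k := 1) (Γ := Γ) f
  refine ⟨rexp (4 * π) * C ^ 2, by positivity, fun X => ?_⟩
  rcases Nat.eq_zero_or_pos X with rfl | hX
  · simp
  have hX' : (0 : ℝ) < X := Nat.cast_pos.mpr hX
  have hy : (0 : ℝ) < 1 / X := by positivity
  have h := sum_norm_sq_le_of_bound f hΓ hy (B := C / (1 / X : ℝ) ^ (1 / 2 : ℝ)) (fun x => by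
    have him : (horPt x hy).im = 1 / X := by
      show ((x : ℂ) + ((1 / X : ℝ) : ℂ) * Complex.I).im = _
      simp
    have := hC (horPt x hy)
    rwa [him, Int.cast_one] at this) X
  rw [div_pow, ← Real.rpow_mul_natCast hy.le, show (1 / 2 : ℝ) * ((2 : ℕ) : ℝ) = 1 by norm_num,
    Real.rpow_one, div_div_eq_mul_div, div_one] at h
  calc ∑ n ∈ range X, ‖(qExpansion 1 f).coeff n‖ ^ 2
      ≤ ∑ n ∈ range X, rexp (4 * π) *
          (‖(qExpansion 1 f).coeff n‖ ^ 2 * rexp (-(4 * π * n * (1 / X)))) := by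
        refine sum_le_sum fun n hn => ?_
        rw [mul_left_comm, ← Real.exp_add]
        refine le_mul_of_one_le_right (sq_nonneg _) (Real.one_le_exp ?_)
        have hn' : (n : ℝ) ≤ X := Nat.cast_le.mpr (mem_range.mp hn).le
        have h0 : (n : ℝ) * (1 / X) ≤ 1 := by rw [mul_one_div, div_le_one hX']; exact hn'
        nlinarith [Real.pi_pos]
    _ ≤ rexp (4 * π) * (C ^ 2 * X) := by
        rw [← mul_sum]
        exact mul_le_mul_of_nonneg_left h (Real.exp_pos _).le
    _ = rexp (4 * π) * C ^ 2 * X := (mul_assoc _ _ _).symm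

/-- A mean square bound gives a pole of order at most one. -/
theorem sum_mul_rpow_le {a : ℕ → ℝ} (ha : ∀ n, 0 ≤ a n) {C : ℝ}
    (h : ∀ X : ℕ, ∑ n ∈ range X, a n ≤ C * X) {s : ℝ} (hs : 1 < s) (hs2 : s ≤ 2)
    (t : Finset ℕ) (ht : 0 ∉ t) : ∑ n ∈ t, a n * (n : ℝ) ^ (-s) ≤ 8 * C / (s - 1) := by
  have hC : 0 ≤ C := by simpa using (ha 0).trans (by simpa using h 1)
  set q : ℝ := 2 ^ (-(s - 1)) with hq
  have hq0 : 0 < q := Real.rpow_pos_of_pos two_pos _
  have hq1 : q < 1 := Real.rpow_lt_one_of_one_lt_of_neg one_lt_two (by linarith)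
  obtain ⟨J, hJ⟩ : ∃ J, ∀ n ∈ t, Nat.log 2 n < J :=
    ⟨t.sup (fun n => Nat.log 2 n) + 1, fun n hn => Nat.lt_succ_of_le (le_sup (f := fun n => Nat.log 2 n) hn)⟩
  rw [← sum_fiberwise_of_maps_to (g := fun n => Nat.log 2 n) (t := range J)
    fun n hn => mem_range.mpr (hJ n hn)]
  have hblock : ∀ j ∈ range J, ∑ n ∈ t.filter (fun n => Nat.log 2 n = j), a n * (n : ℝ) ^ (-s) ≤
      2 * C * q ^ j := fun j _ => by
    calc ∑ n ∈ t.filter (fun n => Nat.log 2 n = j), a n * (n : ℝ) ^ (-s)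
        ≤ ∑ n ∈ t.filter (fun n => Nat.log 2 n = j), a n * ((2 : ℝ) ^ j) ^ (-s) := by
          refine sum_le_sum fun n hn => mul_le_mul_of_nonneg_left ?_ (ha n)
          obtain ⟨hnt, rfl⟩ := mem_filter.mp hn
          have hn0 : n ≠ 0 := fun e => ht (e ▸ hnt)
          exact Real.rpow_le_rpow_of_nonpos (by positivity)
            (by exact_mod_cast Nat.pow_log_le_self 2 hn0) (by linarith)
      _ ≤ (∑ n ∈ range (2 ^ (j + 1)), a n) * ((2 : ℝ) ^ j) ^ (-s) := by
          rw [← sum_mul]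
          refine mul_le_mul_of_nonneg_right (sum_le_sum_of_subset_of_nonneg (fun n hn => ?_)
            fun n _ _ => ha n) (by positivity)
          obtain ⟨-, rfl⟩ := mem_filter.mp hn
          exact mem_range.mpr (Nat.lt_pow_succ_log_self one_lt_two n)
      _ ≤ C * ((2 ^ (j + 1) : ℕ) : ℝ) * ((2 : ℝ) ^ j) ^ (-s) :=
          mul_le_mul_of_nonneg_right (h _) (by positivity)
      _ = 2 * C * q ^ j := by
          rw [hq, ← Real.rpow_natCast _ j, ← Real.rpow_natCast _ j, ← Real.rpow_mul two_pos.le,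
            ← Real.rpow_mul two_pos.le, Nat.cast_pow, Nat.cast_ofNat, ← Real.rpow_natCast _ (j + 1),
            mul_assoc, ← Real.rpow_add two_pos,
            show ((j + 1 : ℕ) : ℝ) + (j : ℝ) * -s = 1 + -(s - 1) * j by push_cast; ring,
            Real.rpow_add two_pos, Real.rpow_one]
          ring
  refine (sum_le_sum hblock).trans ?_
  rw [← mul_sum]
  have hgeom : ∑ j ∈ range J, q ^ j ≤ (1 - q)⁻¹ := by
    rw [← tsum_geometric_of_lt_one hq0.le hq1]
    exact (summable_geometric_of_lt_one hq0.le hq1).sum_le_tsum _ fun j _ => by positivity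
  have hgap : (s - 1) / 4 ≤ 1 - q := by
    have h1 : q ≤ 1 - (s - 1) / 4 := by
      rw [hq, Real.rpow_def_of_pos two_pos]
      have hl : 1 / 2 ≤ Real.log 2 := by linarith [Real.log_two_gt_d9]
      have hu : Real.log 2 * (s - 1) ≤ 1 := by nlinarith [Real.log_two_lt_d9]
      have he := Real.add_one_le_exp (Real.log 2 * (s - 1))
      rw [show Real.log 2 * -(s - 1) = -(Real.log 2 * (s - 1)) by ring, Real.exp_neg]
      refine (inv_anti₀ (by nlinarith) he).trans ?_
      rw [inv_le_iff_one_le_mul₀ (by nlinarith)]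
      nlinarith
    linarith
  calc 2 * C * ∑ j ∈ range J, q ^ j ≤ 2 * C * ((s - 1) / 4)⁻¹ :=
        mul_le_mul_of_nonneg_left (hgeom.trans (inv_anti₀ (by linarith) hgap)) (by positivity)
    _ = 8 * C / (s - 1) := by rw [inv_div]; ring

end FermatAgent.DeligneSerre
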